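import Fermat.Agent.HopfFrame.JZeroAct
import Fermat.Agent.HopfOrder.Concrete
import Fermat.Agent.GoodRed.GenusAll
import Fermat.Agent.S37aux.Bare
import Fermat.Agent.Frob.Exists

/-!
# The torsion of `J₀(N)` is finite flat at the primes of good reduction
-/

set_option autoImplicit false

noncomputable section

open ModularCurve AlgebraicCurve
open Fermat.Agent.FlatGS Fermat.Agent.LatticeFlat Fermat.Agent.HopfOrder Fermat.Agent.Deuring
  Fermat.Agent.FF Fermat.Agent.S37aux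
open scoped Fermat.Agent.GaussVal

namespace Fermat.Agent.HopfFrame

/-- The torsion of `J₀(N)` is finite flat over `ℤ_(ℓ)` if `ℓ ∤ N`, relative to a choice of a place
above `ℓ`. -/
theorem isFlatModule_actT_of {N : ℕ} [NeZero N] {ℓ : ℕ} (hℓ : ℓ.Prime) (hN : ¬ ℓ ∣ N) (k : ℕ)
    {A : ValuationSubring Om} (hA : A.LiesOverPrime ℓ) : IsFlatModule ℓ (actT N ℓ k) := by
  have h : DegC A N := degC A N (cast_ne_zero hℓ hA hN)
  have hFF : IsFF (RF A) (FC A N) := h.isFF
  have hg : genusFF (AlgebraicClosure ℚ) (modularFunctionFieldBar N) ≤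
      genusFF (RF A) (FC A N) := GoodRed.genus_le_all hℓ hA N hN
  obtain ⟨Rd, -⟩ := (S37aux.gauss hℓ hA N h).exists_redMap_of_le hg
  obtain ⟨i1, i2, i3, i4, t1, t2, t3, S, -, hS⟩ := exists_setup_modular hℓ hA h Rd
  have hfin := finite_torsionBy N ℓ k hℓ.ne_zero
  exact isFlatModule_of_setup S hℓ hA (fun σ => arithmeticGalois (modularFunctionFieldFull N) σ)
    (fun σ => MW.smul_cuspInf N σ) (fun σ a => rfl) (fun σ b => hS b σ)
    ((Submodule.torsionBy ℤ (JZero N) ((ℓ : ℤ) ^ k)).subtype.toAddMonoidHom)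
    Subtype.val_injective (gAct_actT N ℓ k) (fun σ x => rfl)

/-- **The torsion of `J₀(N)` is finite flat over `ℤ_(ℓ)` if `ℓ ∤ N`.** -/
theorem isFlatModule_actT {N : ℕ} [NeZero N] {ℓ : ℕ} (hℓ : ℓ.Prime) (hN : ¬ ℓ ∣ N) (k : ℕ) :
    IsFlatModule ℓ (actT N ℓ k) := by
  obtain ⟨A, hA⟩ := Frob.exists_liesOverPrime ℓ hℓ
  exact isFlatModule_actT_of hℓ hN k hA

end Fermat.Agent.HopfFrame
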