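import Fermat.Agent.HopfFrame.Move

/-!
# A common basis of finitely many quotients
-/

set_option autoImplicit false

open scoped TensorProduct

namespace Fermat.Agent.HopfFrame

open Fermat.Agent.HopfOrder Fermat.Agent.HopfOrder.PoleBasis

section Lin

variable {k C : Type*} [Field k] [Infinite k] [AddCommGroup C] [Module k C]

lemma exists_common_basis_aux {ι : Type*} [Finite ι] (E : ι → Submodule k C) (g : ℕ)
    (hE : ∀ i, Module.Finite k (C ⧸ E i) ∧ Module.finrank k (C ⧸ E i) = g) (j : ℕ) (hj : j ≤ g) :
    ∃ s : Fin j → C, ∀ i, LinearIndependent k (fun a => (E i).mkQ (s a)) := by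
  classical
  cases nonempty_fintype ι
  induction j with
  | zero => exact ⟨Fin.elim0, fun i => linearIndependent_empty_type⟩
  | succ j ih =>
    obtain ⟨s, hs⟩ := ih (by omega)
    let V : ι → Submodule k C := fun i =>
      (Submodule.span k (Set.range fun a => (E i).mkQ (s a))).comap (E i).mkQ
    have hV : ∀ i, V i ≠ ⊤ := by
      intro i htop
      have h1 : Submodule.span k (Set.range fun a => (E i).mkQ (s a)) = ⊤ := by
        rw [eq_top_iff]
        rintro y -
        obtain ⟨x, rfl⟩ := (E i).mkQ_surjective y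
        have : x ∈ V i := by rw [htop]; trivial
        exact this
      obtain ⟨hf, hr⟩ := hE i
      have h2 := finrank_range_le_card (R := k) (fun a => (E i).mkQ (s a))
      rw [Set.finrank, h1, finrank_top, hr, Fintype.card_fin] at h2
      omega
    have htop : (⊤ : Subspace k C) ∉ Finset.univ.image V := by
      intro h
      obtain ⟨i, -, hi⟩ := Finset.mem_image.mp h
      exact hV i hi
    have hne := Subspace.biUnion_ne_univ_of_top_notMem htop
    obtain ⟨x, hx⟩ := (Set.ne_univ_iff_exists_notMem _).mp hne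
    simp only [Set.mem_iUnion, not_exists] at hx
    refine ⟨Fin.snoc s x, fun i => ?_⟩
    have h3 : (fun a => (E i).mkQ ((Fin.snoc s x : Fin (j + 1) → C) a)) =
        Fin.snoc (fun a => (E i).mkQ (s a)) ((E i).mkQ x) := by
      funext a
      refine Fin.lastCases ?_ (fun a => ?_) a
      · simp
      · simp
    rw [h3, linearIndependent_finSnoc]
    refine ⟨hs i, fun hmem => hx (V i) (Finset.mem_image_of_mem _ (Finset.mem_univ i)) hmem⟩

end Lin

section Span

variable {k C : Type*} [Field k] [Infinite k] [CommRing C] [Algebra k C]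

/-- A common basis of finitely many quotients of dimension `g`. -/
lemma exists_common_basis {ι : Type*} [Finite ι] (E : ι → Ideal C) (g : ℕ)
    (hE : ∀ i, IsRel k (E i) g) :
    ∃ s : Fin g → C, ∀ i (z : C), ∃ c : Fin g → k, z - ∑ j, c j • s j ∈ E i := by
  obtain ⟨s, hs⟩ := exists_common_basis_aux (fun i => (E i).restrictScalars k) g
    (fun i => isRel_iff_finrank.mp (hE i)) g le_rfl
  refine ⟨s, fun i z => ?_⟩
  obtain ⟨hf, hr⟩ := isRel_iff_finrank.mp (hE i)
  have hf' : Module.Finite k (C ⧸ (E i).restrictScalars k) := hf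
  have hr' : Module.finrank k (C ⧸ (E i).restrictScalars k) = g := hr
  have h1 := (hs i).span_eq_top_of_card_eq_finrank' (by rw [Fintype.card_fin, hr'])
  have h2 : ((E i).restrictScalars k).mkQ z ∈ Submodule.span k
      (Set.range fun a => ((E i).restrictScalars k).mkQ (s a)) := by rw [h1]; trivial
  obtain ⟨c, hc⟩ := (Submodule.mem_span_range_iff_exists_fun k).mp h2
  refine ⟨c, ?_⟩
  have h3 : ((E i).restrictScalars k).mkQ (z - ∑ j, c j • s j) = 0 := by
    rw [map_sub, map_sum, ← hc, sub_eq_zero]
    exact Finset.sum_congr rfl fun j _ => by rw [map_smul]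
  rw [Submodule.mkQ_apply, Submodule.Quotient.mk_eq_zero] at h3
  exact h3

end Span

variable {R B : Type*} [CommRing R] [CommRing B] [Algebra R B] (P : PoleBasis R B)
variable {K : Type*} [Field K] {A : ValuationSubring K} [Algebra R A]
variable {k : Type*} [Field k] [Algebra R k] [Infinite k] (π : A →ₐ[R] k)

include P in
/-- Elements with coefficients fixed by inertia whose images are a basis of each of finitely many
quotients of dimension `g`. -/
theorem exists_fixed_basis (G : Set (A →ₐ[R] A))
    (hsurj : ∀ c : k, ∃ a : A, π a = c ∧ ∀ σ ∈ G, σ a = a) {ι : Type*} [Finite ι]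
    (E : ι → Ideal (k ⊗[R] B)) {g : ℕ} (hE : ∀ i, IsRel k (E i) g) :
    ∃ s : Fin g → A ⊗[R] B, (∀ j, ∀ σ ∈ G, sp B σ (s j) = s j) ∧
      ∀ i (z : k ⊗[R] B), ∃ c : Fin g → k, z - ∑ j, c j • sp B π (s j) ∈ E i := by
  obtain ⟨sb, hsb⟩ := exists_common_basis E g hE
  have hn := fun j => (P.baseChange k).exists_mem_fil (sb j)
  choose n hn using hn
  have hs := fun j => exists_fixed_lift P π G hsurj (hn j).2
  choose s hs hsb' hsG using hs
  refine ⟨s, hsG, fun i z => ?_⟩
  simp only [hsb']
  exact hsb i z

end Fermat.Agent.HopfFrame
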