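import Fermat.Agent.HopfFrame.Mult

/-!
# Every ideal class of the generic fibre is represented by a good ideal
-/

set_option autoImplicit false

open scoped TensorProduct

namespace Fermat.Agent.HopfFrame

open Fermat.Agent.HopfOrder Fermat.Agent.HopfOrder.PoleBasis

variable {R B : Type*} [CommRing R] [CommRing B] [Algebra R B] (P : PoleBasis R B)
variable {K : Type*} [Field K] [Algebra R K] {A : ValuationSubring K} [Algebra R A]
  [IsScalarTower R A K]
variable {k : Type*} [Field k] [Algebra R k] (π : A →ₐ[R] k)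

/-- the basis vector of pole order `n` over any base -/
lemma lc_base (T : Type*) [CommRing T] [Algebra R T] (n : ℕ) :
    (P.baseChange T).lc n (P.bas T (n - P.g)) = 1 := (P.baseChange T).lc_b

lemma mem_fil_base (T : Type*) [CommRing T] [Algebra R T] {n : ℕ} (hn : P.m0 < n) :
    P.bas T (n - P.g) ∈ (P.baseChange T).fil n := by
  have hg := P.hg
  exact (P.baseChange T).b_mem_fil (by rw [baseChange_g]; omega)

lemma ptHom_bas {T : Type*} [CommRing T] [Algebra R T] (v : B →ₐ[R] T) (i : ℕ) :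
    ptHom v (P.bas T i) = v (P.b i) := by
  rw [bas_apply, ptHom_tmul, one_mul]

/-- If one basis vector is integral at a point, the point is good. -/
lemma good_of_mem {y : B →ₐ[R] K} {n : ℕ} (hn : P.m0 < n) (h : y (P.b (n - P.g)) ∈ A) :
    Good P A (ptIdeal y) := by
  have h1 : algebraMap A (A ⊗[R] B) ⟨y (P.b (n - P.g)), h⟩ ∈ (P.baseChange A).fil P.m0 := by
    rw [Algebra.algebraMap_eq_smul_one]
    exact Submodule.smul_mem _ _ ((P.baseChange A).one_mem_fil le_rfl)
  refine ⟨n, hn, P.bas A (n - P.g) - algebraMap A _ ⟨y (P.b (n - P.g)), h⟩, ?_, ?_, ?_⟩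
  · exact sub_mem (mem_fil_base P A hn) ((P.baseChange A).fil_mono hn.le h1)
  · rw [map_sub, lc_base, (P.baseChange A).lc_eq_zero_of_mem (n := P.m0) (m := n) hn (by
      rw [baseChange_m0]; omega) h1, sub_zero]
    exact isUnit_one
  · rw [mem_ptIdeal, map_sub, map_sub, sp_algebraMap, AlgHom.commutes, P.sp_bas, ptHom_bas]
    exact sub_self _

variable (hπ : Function.Surjective π)

include hπ in
omit [IsScalarTower R A K] [Algebra R K] in
lemma map_eq_zero_of_inv_notMem {c : K} (hc : c ∈ A) (hc' : c⁻¹ ∉ A) : π ⟨c, hc⟩ = 0 := by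
  by_contra h
  obtain ⟨d, hd⟩ := (isUnit_of_map_ne_zero π hπ h).exists_right_inv
  have hd' : c * (d : K) = 1 := congrArg Subtype.val hd
  apply hc'
  rw [← eq_inv_of_mul_eq_one_right hd']
  exact d.2

include hπ in
/-- A bad point is a zero of a function reducing to one. -/
lemma exists_one_of_bad {y : B →ₐ[R] K} (h : ¬ Good P A (ptIdeal y)) :
    ∃ t : A ⊗[R] B, sp B (incl A) t ∈ ptIdeal y ∧ sp B π t = 1 := by
  have hg := P.hg
  let n := P.m0 + 1
  have hn : P.m0 < n := by omega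
  set a := y (P.b (n - P.g)) with ha
  have haA : a ∉ A := fun h' => h (good_of_mem P hn h')
  have ha0 : a ≠ 0 := by
    intro h0
    rw [h0] at haA
    exact haA A.zero_mem
  have hainv : a⁻¹ ∈ A := (A.mem_or_inv_mem a).resolve_left haA
  have hπa : π ⟨a⁻¹, hainv⟩ = 0 := map_eq_zero_of_inv_notMem π hπ hainv (by rwa [inv_inv])
  refine ⟨1 - (⟨a⁻¹, hainv⟩ : A) • P.bas A (n - P.g), ?_, ?_⟩
  · rw [mem_ptIdeal, map_sub, map_sub, map_one, map_one, sp_smul, map_smul, P.sp_bas, ptHom_bas]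
    change 1 - a⁻¹ • a = 0
    rw [smul_eq_mul, inv_mul_cancel₀ ha0, sub_self]
  · rw [map_sub, map_one, sp_smul, hπa, zero_smul, sub_zero]

variable [IsDedekindDomain (K ⊗[R] B)] [IsAlgClosed K]

include hπ in
/-- Decomposition into good and bad part. -/
theorem exists_decomp {J : Ideal (K ⊗[R] B)} (hJ : J ≠ ⊥) : ∃ Jg Jb : Ideal (K ⊗[R] B),
    J = Jg * Jb ∧ Good P A Jg ∧ ∃ t : A ⊗[R] B, sp B (incl A) t ∈ Jb ∧ sp B π t = 1 := by
  induction J using UniqueFactorizationMonoid.induction_on_prime with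
  | h₁ => exact absurd rfl hJ
  | h₂ J hu =>
    rw [Ideal.isUnit_iff] at hu
    refine ⟨⊤, ⊤, ?_, Good.top P, 1, trivial, map_one _⟩
    rw [hu, Ideal.mul_top]
  | h₃ J p hJ0 hp ih =>
    obtain ⟨Jg, Jb, hJe, hg, t, ht, ht1⟩ := ih hJ0
    have hpm : p.IsMaximal := (Ideal.isPrime_of_prime hp).isMaximal hp.ne_zero
    obtain ⟨y, rfl⟩ := exists_pt hpm P
    by_cases hgood : Good P A (ptIdeal y)
    · exact ⟨ptIdeal y * Jg, Jb, by rw [hJe, mul_assoc], hgood.mul P hg, t, ht, ht1⟩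
    · obtain ⟨t', ht', ht1'⟩ := exists_one_of_bad P π hπ hgood
      refine ⟨Jg, ptIdeal y * Jb, by rw [hJe]; ring, hg, t' * t, ?_, ?_⟩
      · rw [map_mul]; exact Ideal.mul_mem_mul ht' ht
      · rw [map_mul, ht1, ht1', one_mul]

omit [IsAlgClosed K] in
/-- The inverse class of a good ideal is good. -/
lemma Good.exists_inv {J : Ideal (K ⊗[R] B)} (h : Good P A J) : ∃ (J' : Ideal (K ⊗[R] B))
    (u : K ⊗[R] B), Good P A J' ∧ u ≠ 0 ∧ J * J' = Ideal.span {u} := by
  obtain ⟨n, hn, s, hs, hu, hsJ⟩ := h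
  have hle : Ideal.span {sp B (incl (R := R) A) s} ≤ J :=
    (Ideal.span_singleton_le_iff_mem J).mpr hsJ
  obtain ⟨J', hJ'⟩ := Ideal.dvd_iff_le.mpr hle
  refine ⟨J', sp B (incl (R := R) A) s, ⟨n, hn, s, hs, hu, ?_⟩, ?_, hJ'.symm⟩
  · have h2 : J * J' ≤ J' := Ideal.mul_le_right
    exact h2 (hJ' ▸ Ideal.mem_span_singleton_self _)
  · intro h0
    have h1 : Good P A (⊥ : Ideal (K ⊗[R] B)) := ⟨n, hn, s, hs, hu, by rw [h0]; exact zero_mem _⟩
    exact ne_bot_of_good P h1 rfl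

variable [IsDedekindDomain (k ⊗[R] B)]

include hπ in
/-- The inverse class of a bad point is good. -/
theorem exists_inv_of_bad {y : B →ₐ[R] K} (h : ¬ Good P A (ptIdeal y)) :
    ∃ (J : Ideal (K ⊗[R] B)) (u : K ⊗[R] B), Good P A J ∧ u ≠ 0 ∧
      ptIdeal y * J = Ideal.span {u} := by
  have hg := P.hg
  let n := P.m0 + 1
  have hn : P.m0 < n := by omega
  let a1 := y (P.b (n - P.g))
  let a2 := y (P.b (n + 1 - P.g))
  have ha1 : a1 ∉ A := fun h' => h (good_of_mem P hn h')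
  have ha2 : a2 ∉ A := fun h' => h (good_of_mem P (n := n + 1) (by omega) h')
  have ha10 : a1 ≠ 0 := fun h0 => ha1 (by rw [h0]; exact A.zero_mem)
  have ha20 : a2 ≠ 0 := fun h0 => ha2 (by rw [h0]; exact A.zero_mem)
  let τ := a1 / a2
  have hτ0 : τ ≠ 0 := div_ne_zero ha10 ha20
  -- `τ⁻¹ ∉ A`
  have hτinv : τ⁻¹ ∉ A := by
    intro hmem
    apply h
    -- `u2 - τ⁻¹ u1`
    refine ⟨n + 1, by omega, P.bas A (n + 1 - P.g) - (⟨τ⁻¹, hmem⟩ : A) • P.bas A (n - P.g),
      ?_, ?_, ?_⟩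
    · exact sub_mem (mem_fil_base P A (by omega))
        (Submodule.smul_mem _ _ ((P.baseChange A).fil_mono (by omega) (mem_fil_base P A hn)))
    · rw [map_sub, lc_base, map_smul, (P.baseChange A).lc_eq_zero_of_mem (n := n) (m := n + 1)
        (by omega) (by rw [baseChange_m0]; omega) (mem_fil_base P A hn), smul_zero, sub_zero]
      exact isUnit_one
    · rw [mem_ptIdeal, map_sub, map_sub, sp_smul, map_smul, P.sp_bas, P.sp_bas, ptHom_bas,
        ptHom_bas]
      change a2 - τ⁻¹ • a1 = 0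
      rw [smul_eq_mul, inv_div, div_mul_cancel₀ _ ha10, sub_self]
  have hτA : τ ∈ A := (A.mem_or_inv_mem τ).resolve_right hτinv
  have hπτ : π ⟨τ, hτA⟩ = 0 := map_eq_zero_of_inv_notMem π hπ hτA hτinv
  let s : A ⊗[R] B := P.bas A (n - P.g) - (⟨τ, hτA⟩ : A) • P.bas A (n + 1 - P.g)
  have hsK : sp B (incl (R := R) A) s = P.bas K (n - P.g) - τ • P.bas K (n + 1 - P.g) := by
    simp only [s, map_sub, sp_smul, P.sp_bas]
    rfl
  have hsk : sp B π s = P.bas k (n - P.g) := by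
    simp only [s, map_sub, sp_smul, P.sp_bas, hπτ, zero_smul, sub_zero]
  have hsy : sp B (incl A) s ∈ ptIdeal y := by
    rw [hsK, mem_ptIdeal, map_sub, map_smul, ptHom_bas, ptHom_bas]
    change a1 - τ • a2 = 0
    rw [smul_eq_mul, div_mul_cancel₀ _ ha20, sub_self]
  -- codimensions
  have hsfil : sp B (incl (R := R) A) s ∈ (P.baseChange K).fil (n + 1) := by
    rw [hsK]
    exact sub_mem ((P.baseChange K).fil_mono (by omega) (mem_fil_base P K hn))
      (Submodule.smul_mem _ _ (mem_fil_base P K (by omega)))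
  have hslc : (P.baseChange K).lc (n + 1) (sp B (incl (R := R) A) s) ≠ 0 := by
    rw [hsK, map_sub, map_smul, lc_base, (P.baseChange K).lc_eq_zero_of_mem (n := n) (m := n + 1)
        (by omega) (by rw [baseChange_m0]; omega) (mem_fil_base P K hn), zero_sub, smul_eq_mul,
        mul_one, neg_ne_zero]
    exact hτ0
  have hcodK : IsRel K (Ideal.span {sp B (incl (R := R) A) s}) (n + 1) :=
    isRel_of_exact (P.baseChange K) (by rw [baseChange_m0]; omega) hsfil hslc
  have hcodk : IsRel k (Ideal.span {sp B π s}) n := by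
    rw [hsk]
    exact isRel_of_exact (P.baseChange k) (by rw [baseChange_m0]; omega) (mem_fil_base P k hn)
      (by rw [lc_base]; exact one_ne_zero)
  have hs0 : sp B (incl (R := R) A) s ≠ 0 := fun h0 => hslc (by rw [h0, map_zero])
  have hsk0 : sp B π s ≠ 0 := by rw [hsk]; exact (P.bas k).ne_zero _
  have hne : Ideal.span {sp B (incl (R := R) A) s} ≠ ⊥ := by
    rwa [Ne, Ideal.span_singleton_eq_bot]
  obtain ⟨Jg, Jb, hJ, hgood, t, ht, ht1⟩ := exists_decomp P π hπ hne
  have hJ0 : Jg * Jb ≠ 0 := by rw [← hJ]; exact hne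
  have hJg0 : Jg ≠ ⊥ := left_ne_zero_of_mul hJ0
  have hJb0 : Jb ≠ ⊥ := right_ne_zero_of_mul hJ0
  obtain ⟨dg, hdg⟩ := exists_isRel (P.baseChange K) hJg0
  obtain ⟨db, hdb⟩ := exists_isRel (P.baseChange K) hJb0
  have hsum : n + 1 = dg + db := by
    have h1 := hdg.mul_dedekind hdb hJg0 hJb0
    rw [← hJ] at h1
    exact hcodK.degree_unique h1
  -- `red Jg ≤ (s̄)`
  have hle : red A π Jg ≤ Ideal.span {sp B π s} := by
    intro z hz
    obtain ⟨x, hx, rfl⟩ := (mem_red π hπ).mp hz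
    have h1 : sp B (incl A) (x * t) ∈ Ideal.span {sp B (incl (R := R) A) s} := by
      rw [hJ, map_mul]
      exact Ideal.mul_mem_mul hx ht
    obtain ⟨w, hw⟩ := Ideal.mem_span_singleton'.mp h1
    rw [mul_comm] at hw
    obtain ⟨w', rfl, hw'⟩ := gauss P π hπ hsk0 hw
    have h2 := congrArg (sp B π) hw'
    rw [map_mul, map_mul, ht1, mul_one] at h2
    rw [← h2]
    exact Ideal.mul_mem_right _ _ (Ideal.mem_span_singleton_self _)
  have hdgn : n ≤ dg := by
    obtain ⟨d', hd', h1⟩ := (hgood.isRel_red P π hπ hdg).mono_degree hle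
    rw [hcodk.degree_unique h1]
    exact hd'
  -- the point divides the bad part
  have hyprime : (ptIdeal y).IsPrime := inferInstance
  have hyJb : Jb ≤ ptIdeal y := by
    have h1 : Jg * Jb ≤ ptIdeal y := by
      rw [← hJ]
      exact (Ideal.span_singleton_le_iff_mem _).mpr hsy
    rcases (Ideal.IsPrime.mul_le hyprime).mp h1 with h2 | h2
    · exact absurd (hgood.mono P h2) h
    · exact h2
  obtain ⟨d', hd', h1⟩ := hdb.mono_degree hyJb
  have h2 : d' = 1 := h1.degree_unique (isRel_ptIdeal y)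
  have hJbe : Jb = ptIdeal y := hdb.eq_of_le (isRel_ptIdeal y) (by omega) hyJb
  exact ⟨Jg, _, hgood, hs0, by rw [hJ, hJbe, mul_comm]⟩

include hπ in
/-- Every nonzero ideal is linearly equivalent to a good ideal. -/
theorem exists_good_lin {J : Ideal (K ⊗[R] B)} (hJ : J ≠ ⊥) :
    ∃ J' : Ideal (K ⊗[R] B), Good P A J' ∧ Lin J J' := by
  induction J using UniqueFactorizationMonoid.induction_on_prime with
  | h₁ => exact absurd rfl hJ
  | h₂ J hu =>
    rw [Ideal.isUnit_iff] at hu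
    rw [hu]
    exact ⟨⊤, Good.top P, Lin.refl _⟩
  | h₃ J p hJ0 hp ih =>
    obtain ⟨J1, hJ1, hL1⟩ := ih hJ0
    have hpm : p.IsMaximal := (Ideal.isPrime_of_prime hp).isMaximal hp.ne_zero
    obtain ⟨y, rfl⟩ := exists_pt hpm P
    obtain ⟨J2, hJ2, hL2⟩ : ∃ J2 : Ideal (K ⊗[R] B), Good P A J2 ∧ Lin (ptIdeal y) J2 := by
      by_cases hgood : Good P A (ptIdeal y)
      · exact ⟨_, hgood, Lin.refl _⟩
      · obtain ⟨J3, u, hJ3, hu, hJu⟩ := exists_inv_of_bad P π hπ hgood
        obtain ⟨J4, u', hJ4, hu', hJu'⟩ := hJ3.exists_inv P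
        exact ⟨J4, hJ4, Lin.of_principal hu hu' hJu (by rw [mul_comm]; exact hJu')⟩
    exact ⟨J2 * J1, hJ2.mul P hJ1, (hL2.mul_right J).trans (hL1.mul_left J2)⟩

end Fermat.Agent.HopfFrame
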