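import Fermat.Agent.HopfFrame.Frame
import Fermat.Agent.LatticeFlat.Alg

/-!
# Finite groups of ideal classes of a curve with good reduction are finite flat
-/

set_option autoImplicit false

open scoped TensorProduct Pointwise

namespace Fermat.Agent.HopfFrame

open Fermat.Agent.HopfOrder Fermat.Agent.HopfOrder.PoleBasis
open Fermat.Agent.FlatGS Fermat.Agent.LatticeFlat

variable {p : ℕ} {A : ValuationSubring Om} [Algebra (Rp p) A] [IsScalarTower (Rp p) A Om]
variable {k : Type} [Field k] [Algebra (Rp p) k] (π : A →ₐ[Rp p] k)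

/-- Restriction of an element of the decomposition group to the valuation ring. -/
noncomputable def resA {σ : GQ} (hσ : σ ∈ A.decompositionSubgroup ℚ) : A →ₐ[Rp p] A where
  toFun a := ⟨σ a, mem_of_mem_decomposition hσ a.2⟩
  map_one' := Subtype.ext (map_one σ)
  map_mul' a b := Subtype.ext (map_mul σ _ _)
  map_zero' := Subtype.ext (map_zero σ)
  map_add' a b := Subtype.ext (map_add σ _ _)
  commutes' r := Subtype.ext (by
    change σ (algebraMap A Om (algebraMap (Rp p) A r)) = algebraMap A Om (algebraMap (Rp p) A r)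
    rw [← IsScalarTower.algebraMap_apply, Rp_algebraMap_Om, AlgEquiv.commutes])

lemma coe_resA {σ : GQ} (hσ : σ ∈ A.decompositionSubgroup ℚ) (a : A) :
    ((resA (p := p) hσ a : A) : Om) = σ a := rfl

lemma mem_decomposition_of_mem_inertia {σ : GQ} (hσ : σ ∈ A.inertiaSubgroupIn ℚ) :
    σ ∈ A.decompositionSubgroup ℚ := by
  obtain ⟨g, -, rfl⟩ := hσ
  exact g.2

/-- The Galois automorphism as an automorphism over `ℤ_(p)`. -/
noncomputable def galR (p : ℕ) (σ : GQ) : Om ≃ₐ[Rp p] Om := σ.restrictScalars (Rp p)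

lemma galR_apply (σ : GQ) (x : Om) : galR p σ x = σ x := rfl

variable (hπ : Function.Surjective π)

include hπ in
omit [IsScalarTower (Rp p) A Om] in
lemma map_eq_zero_iff_nonunit {a : A} : π a = 0 ↔ (a : Om) ∈ A.nonunits := by
  rw [ValuationSubring.mem_nonunits_iff_exists_mem_maximalIdeal]
  constructor
  · intro h
    refine ⟨a.2, ?_⟩
    intro hu
    have h1 : IsUnit a := hu
    exact (h1.map π).ne_zero h
  · rintro ⟨h1, h2⟩
    by_contra hne
    exact h2 (isUnit_of_map_ne_zero π hπ hne)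

include hπ in
omit [IsScalarTower (Rp p) A Om] in
/-- Every residue class is represented by an element fixed by inertia. -/
lemma exists_inertia_fixed (hp : p.Prime) (hA : A.LiesOverPrime p) (c : k) :
    ∃ a : A, π a = c ∧ ∀ σ ∈ A.inertiaSubgroupIn ℚ, σ (a : Om) = a := by
  rcases eq_or_ne c 0 with rfl | hc
  · exact ⟨0, map_zero π, fun σ _ => map_zero σ⟩
  obtain ⟨a, rfl⟩ := hπ c
  have ha : (a : Om) ∉ A.nonunits := fun h => hc ((map_eq_zero_iff_nonunit π hπ).mpr h)
  obtain ⟨n, ζ, hn, hnp, hζ, haζ⟩ := exists_root_of_unity hp hA a.2 ha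
  have hζA : ζ ∈ A := pow_eq_one_mem hn hζ
  refine ⟨⟨ζ, hζA⟩, ?_, fun σ hσ => ?_⟩
  · have h1 : π (a - ⟨ζ, hζA⟩) = 0 := (map_eq_zero_iff_nonunit π hπ).mpr haζ
    rw [map_sub, sub_eq_zero] at h1
    exact h1.symm
  · change σ ζ = ζ
    by_contra hne
    obtain ⟨h1, h2⟩ := Fermat.Agent.Minkowski.sub_mem_nonunits_of_mem_inertia hσ hζA
    have h3 := inv_sub_mem_of_pow_eq_one hA hn hnp hζ (ω := σ ζ)
      (by rw [← map_pow, hζ, map_one]) hne
    have h4 := nonunits_mul_mem (nonunits_neg_mem h2) h3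
    rw [neg_sub, mul_inv_cancel₀ (sub_ne_zero.mpr (Ne.symm hne))] at h4
    obtain ⟨h5, h6⟩ := ValuationSubring.mem_nonunits_iff_exists_mem_maximalIdeal.mp h4
    exact h6 isUnit_one

variable {B : Type*} [CommRing B] [Algebra (Rp p) B] (P : PoleBasis (Rp p) B)
variable [IsDedekindDomain (Om ⊗[Rp p] B)] [IsDedekindDomain (k ⊗[Rp p] B)] [IsAlgClosed k]

include P hπ in
/-- **Flatness**: a finite group with Galois action which embeds equivariantly into the ideal class
group of `ℚ̄ ⊗ B`, where `B` is an integral model with good reduction, is finite flat over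
`ℤ_(p)`. -/
theorem isFlatModule_of_model (hp : p.Prime) (hA : A.LiesOverPrime p)
    {M : Type} [AddCommGroup M] [Finite M] {act : GQ → M → M} (h : GAct act)
    (hadd : ∀ σ x y, act σ (x + y) = act σ x + act σ y)
    (J : M → Ideal (Om ⊗[Rp p] B)) (hJ : ∀ x, J x ≠ ⊥) (hinj : ∀ x y, Lin (J x) (J y) → x = y)
    (hJadd : ∀ x y, Lin (J (x + y)) (J x * J y))
    (hgal : ∀ σ ∈ A.inertiaSubgroupIn ℚ, ∀ x,
      Lin ((J x).map (sp B (galR p σ : Om →ₐ[Rp p] Om))) (J (act σ x))) :
    IsFlatModule p act := by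
  classical
  let G : Set (A →ₐ[Rp p] A) := {τ | ∃ (σ : GQ) (hσ : σ ∈ A.inertiaSubgroupIn ℚ),
    τ = resA (mem_decomposition_of_mem_inertia hσ)}
  have hG : ∀ σ ∈ G, π.comp σ = π := by
    rintro _ ⟨σ, hσ, rfl⟩
    ext a
    have h1 := (Fermat.Agent.Minkowski.sub_mem_nonunits_of_mem_inertia hσ a.2).2
    have h2 : π (resA (p := p) (mem_decomposition_of_mem_inertia hσ) a - a) = 0 :=
      (map_eq_zero_iff_nonunit π hπ).mpr h1
    rw [map_sub, sub_eq_zero] at h2
    exact h2
  have hsurj : ∀ c : k, ∃ a : A, π a = c ∧ ∀ σ ∈ G, σ a = a := by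
    intro c
    obtain ⟨a, ha, ha'⟩ := exists_inertia_fixed π hπ hp hA c
    refine ⟨a, ha, ?_⟩
    rintro _ ⟨σ, hσ, rfl⟩
    exact Subtype.ext (ha' σ hσ)
  obtain ⟨H, E, hE, heq, hsep, htr⟩ := exists_functions P π hπ G hG hsurj J hJ hinj hJadd
  let ιm : (M → A) →ₗ[A] (M → Om) :=
    { toFun := fun f x => (f x : Om)
      map_add' := fun f g => rfl
      map_smul' := fun a f => rfl }
  have hmap : Submodule.span A (ιm '' (E : Set (M → A))) = (Subalgebra.toSubmodule H).map ιm := by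
    rw [← hE, Submodule.map_span]
  refine isFlatModule_of_local_algebra hp hA h hadd (ιm '' (E : Set (M → A)))
    (E.finite_toSet.image _) ?_ ?_ ?_ ?_ ?_
  · rintro _ ⟨f, hf, rfl⟩ σ hσ x
    have h1 := heq (galR p σ) (resA (mem_decomposition_of_mem_inertia hσ)) ⟨σ, hσ, rfl⟩
      (fun a => rfl) x (act σ x) (hgal σ hσ x) f hf
    exact congrArg Subtype.val h1
  · rw [hmap]
    exact ⟨1, H.one_mem, rfl⟩
  · rintro _ ⟨f, hf, rfl⟩ _ ⟨g, hg, rfl⟩
    rw [hmap]
    have hfH : f ∈ H := by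
      have : f ∈ Submodule.span A (E : Set (M → A)) := Submodule.subset_span hf
      rwa [hE] at this
    have hgH : g ∈ H := by
      have : g ∈ Submodule.span A (E : Set (M → A)) := Submodule.subset_span hg
      rwa [hE] at this
    exact ⟨f * g, H.mul_mem hfH hgH, rfl⟩
  · intro x y hxy
    apply hsep
    intro f hf
    exact Subtype.ext (hxy _ ⟨f, hf, rfl⟩)
  · rintro y _ ⟨f, hf, rfl⟩
    rw [hmap]
    have hfH : f ∈ H := by
      have : f ∈ Submodule.span A (E : Set (M → A)) := Submodule.subset_span hf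
      rwa [hE] at this
    exact ⟨_, htr y f hfH, rfl⟩

end Fermat.Agent.HopfFrame
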