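import Fermat.Agent.HopfFrame.Basis
import Fermat.Agent.HopfOrder.Stable
import Fermat.Agent.HopfOrder.FinType

/-!
# Existence of frames
-/

set_option autoImplicit false

open scoped TensorProduct

namespace Fermat.Agent.HopfFrame

open Fermat.Agent.HopfOrder Fermat.Agent.HopfOrder.PoleBasis

variable {R B : Type*} [CommRing R] [CommRing B] [Algebra R B] (P : PoleBasis R B)

section Map

variable {T T' : Type*} [CommRing T] [Algebra R T] [CommRing T'] [Algebra R T'] [Nontrivial T']

include P in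
lemma map_ptIdeal (φ : T →ₐ[R] T') (v : B →ₐ[R] T) :
    (ptIdeal v).map (sp B φ) = ptIdeal (φ.comp v) := by
  have h1 := (isRel_ptIdeal v).baseChange P φ
  refine h1.eq_of_le (isRel_ptIdeal _) le_rfl ?_
  rw [Ideal.map_le_iff_le_comap]
  intro x hx
  rw [Ideal.mem_comap, mem_ptIdeal, ptHom_sp, (mem_ptIdeal v).mp hx, map_zero]

end Map

lemma Lin.map {D D' : Type*} [CommRing D] [CommRing D'] (f : D →+* D')
    (hf : Function.Injective f) {J J' : Ideal D} (h : Lin J J') : Lin (J.map f) (J'.map f) := by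
  obtain ⟨α, β, hα, hβ, h⟩ := h
  refine ⟨f α, f β, (map_ne_zero_iff f hf).mpr hα, (map_ne_zero_iff f hf).mpr hβ, ?_⟩
  have h1 := congrArg (Ideal.map f) h
  rw [Ideal.map_mul, Ideal.map_mul, Ideal.map_span, Ideal.map_span, Set.image_singleton,
    Set.image_singleton] at h1
  exact h1

variable {K : Type*} [Field K] [Algebra R K] {A : ValuationSubring K} [Algebra R A]
  [IsScalarTower R A K]
variable {k : Type*} [Field k] [Algebra R k] (π : A →ₐ[R] k) (hπ : Function.Surjective π)
variable [IsDedekindDomain (K ⊗[R] B)] [IsAlgClosed K] [IsDedekindDomain (k ⊗[R] B)]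
  [IsAlgClosed k]

include hπ in
/-- **Existence of frames**. -/
theorem exists_frame (G : Set (A →ₐ[R] A)) (hG : ∀ σ ∈ G, π.comp σ = π)
    (hsurj : ∀ c : k, ∃ a : A, π a = c ∧ ∀ σ ∈ G, σ a = a) {M : Type*} [AddCommGroup M] [Finite M]
    (J : M → Ideal (K ⊗[R] B)) (hJ : ∀ x, J x ≠ ⊥) (hinj : ∀ x y, Lin (J x) (J y) → x = y)
    (hadd : ∀ x y, Lin (J (x + y)) (J x * J y)) :
    ∃ F : Frame P A π M, (∀ i, ∀ σ ∈ G, sp B σ (F.S i) = F.S i) ∧
      ∀ (τ : K ≃ₐ[R] K) (σ : A →ₐ[R] A), σ ∈ G → (∀ a : A, (σ a : K) = τ a) → ∀ x x' : M,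
        Lin ((J x).map (sp B (τ : K →ₐ[R] K))) (J x') → (F.I x).map (sp B σ) = F.I x' := by
  classical
  cases nonempty_fintype M
  have : Infinite k := IsAlgClosed.instInfinite
  let Pk := P.baseChange k
  let PK := P.baseChange K
  obtain ⟨S, I, hS, hI⟩ := move P π hπ G hG hsurj J hJ ∅ (by simp)
  choose hgood hrel hlin hns hemp huniq using hI
  let Q : Ideal (K ⊗[R] B) := ∏ v ∈ S, ptIdeal ((incl A).comp v)
  have hQ0 : Q ≠ ⊥ := ne_bot_of_good P (Good.prod P S fun v _ => good_ptIdeal P v)
  have hlinQ : ∀ x, Lin (I x * Q) (J x) := hlin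
  have huniqQ : ∀ x (I' : Ideal (K ⊗[R] B)), IsRel K I' P.g → Lin (I' * Q) (J x) → I' = I x := huniq
  -- the second application of the moving theorem
  have hredI : ∀ x, IsRel k (red A π (I x)) P.g := fun x => (hgood x).isRel_red P π hπ (hrel x)
  have hredI0 : ∀ x, red A π (I x) ≠ ⊥ := fun x => (hredI x).ne_bot Pk
  let W : Finset (Ideal (k ⊗[R] B)) := Finset.univ.biUnion fun x =>
    (UniqueFactorizationMonoid.normalizedFactors (red A π (I x))).toFinset
  have hW : ∀ w, w ∈ W ↔ ∃ x, w.IsPrime ∧ red A π (I x) ≤ w := by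
    intro w
    simp only [W, Finset.mem_biUnion, Finset.mem_univ, true_and, Multiset.mem_toFinset]
    exact exists_congr fun x => Ideal.mem_normalizedFactors_iff (hredI0 x)
  have hWmax : ∀ w ∈ W, w.IsMaximal := by
    intro w hw
    obtain ⟨x, hwp, hwx⟩ := (hW w).mp hw
    refine hwp.isMaximal fun h => ?_
    rw [h, le_bot_iff] at hwx
    exact hredI0 x hwx
  obtain ⟨S', I', -, hI'⟩ := move P π hπ G hG hsurj J hJ W hWmax
  choose hgood' hrel' hlin' hns' hW' huniq' using hI'
  let Q' : Ideal (K ⊗[R] B) := ∏ v ∈ S', ptIdeal ((incl A).comp v)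
  have hQ'0 : Q' ≠ ⊥ := ne_bot_of_good P (Good.prod P S' fun v _ => good_ptIdeal P v)
  have hlinQ' : ∀ x, Lin (I' x * Q') (J x) := hlin'
  have hcop : ∀ x z, red A π (I x) ⊔ red A π (I' z) = ⊤ := by
    intro x z
    by_contra hne
    obtain ⟨w, hwm, hw⟩ := Ideal.exists_le_maximal _ hne
    have hwW : w ∈ W := (hW w).mpr ⟨x, hwm.isPrime, le_sup_left.trans hw⟩
    exact hW' z w hwW (le_sup_right.trans hw)
  -- the basis
  obtain ⟨Sg, hSgG, hSg⟩ := exists_fixed_basis P π G hsurj (fun x : M => red A π (I x)) hredI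
  let F : Frame P A π M :=
    { I := fun x => rA A (I x)
      rel := fun x => (hgood x).isRel P π hπ (hrel x)
      nonsp := hns
      uniq := by
        intro x J' hJ' hL
        rw [map_rA P] at hL ⊢
        exact huniqQ x J' hJ' ((hL.mul_right Q).trans (hlinQ x))
      inj := by
        intro x y hxy
        have h1 : I x = I y := by
          have h2 : rA A (I x) = rA A (I y) := hxy
          rw [← map_rA P (A := A) (I x), h2, map_rA P]
        apply hinj
        exact (hlinQ x).symm.trans (h1 ▸ hlinQ y)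
      tr := by
        intro y
        refine ⟨rA A (I' y), rA A (I' 0), P.g, P.g, (hgood' y).isRel P π hπ (hrel' y),
          (hgood' 0).isRel P π hπ (hrel' 0), fun x => ⟨?_, ?_, ?_⟩⟩
        · rw [Ideal.map_mul, map_rA P, map_rA P, map_rA P, map_rA P]
          -- cancel `Q * Q'`
          apply Lin.cancel_left (X := Q * Q') (mul_ne_zero hQ0 hQ'0)
          have h1 : Lin (Q * Q' * (I x * I' y)) (J x * J y) := by
            have e : Q * Q' * (I x * I' y) = (I x * Q) * (I' y * Q') := by ring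
            rw [e]
            exact ((hlinQ x).mul_right _).trans ((hlinQ' y).mul_left _)
          have h2 : Lin (Q * Q' * (I' 0 * I (x + y))) (J 0 * J (x + y)) := by
            have e : Q * Q' * (I' 0 * I (x + y)) = (I' 0 * Q') * (I (x + y) * Q) := by ring
            rw [e]
            exact ((hlinQ' 0).mul_right _).trans ((hlinQ (x + y)).mul_left _)
          have h3 : Lin (J 0 * J (x + y)) (J (0 + (x + y))) := (hadd 0 (x + y)).symm
          rw [zero_add] at h3
          exact h1.trans (((hadd x y).symm.trans h3.symm).trans h2.symm)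
        · exact hcop x y
        · rw [sup_comm]; exact hcop x 0
      S := Sg
      hS := hSg }
  refine ⟨F, hSgG, fun τ σ hσ hτσ x x' hL => ?_⟩
  let τ' : K →ₐ[R] K := τ
  have hinjτ : Function.Injective (sp B τ') := by
    intro a b hab
    have h1 := congrArg (sp B (τ.symm : K →ₐ[R] K)) hab
    rw [sp_comp, sp_comp] at h1
    have h2 : ((τ.symm : K →ₐ[R] K)).comp τ' = AlgHom.id R K := by
      ext a
      exact τ.symm_apply_apply a
    rw [h2] at h1
    have h3 : ∀ c : K ⊗[R] B, sp B (AlgHom.id R K) c = c := by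
      intro c
      induction c with
      | zero => simp
      | tmul t b => simp
      | add a b ha hb => rw [map_add, ha, hb]
    rwa [h3, h3] at h1
  have hcomp : (incl (R := R) A).comp σ = τ'.comp (incl (R := R) A) := by
    ext a
    exact hτσ a
  have hQτ : Q.map (sp B τ') = Q := by
    have hprod : ∀ s : Finset (B →ₐ[R] A), (∀ v ∈ s, σ.comp v = v) →
        (∏ v ∈ s, ptIdeal ((incl A).comp v)).map (sp B τ') = ∏ v ∈ s, ptIdeal ((incl A).comp v) := by
      intro s
      induction s using Finset.induction_on with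
      | empty =>
        intro _
        rw [Finset.prod_empty, Ideal.one_eq_top, Ideal.map_top]
      | insert a s ha ih =>
        intro hs
        rw [Finset.prod_insert ha, Ideal.map_mul, ih fun v hv => hs v (Finset.mem_insert_of_mem hv),
          map_ptIdeal P, ← AlgHom.comp_assoc, ← hcomp, AlgHom.comp_assoc,
          hs a (Finset.mem_insert_self a s)]
    exact hprod S fun v hv => hS v hv σ hσ
  have hIx : (I x).map (sp B τ') = I x' := by
    apply huniqQ x'
    · exact (hrel x).baseChange P τ'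
    · have h1 := Lin.map (sp B τ').toRingHom hinjτ (hlinQ x)
      have h2 : (I x * Q).map (sp B τ').toRingHom = (I x).map (sp B τ') * Q := by
        have : (I x * Q).map (sp B τ') = (I x).map (sp B τ') * Q := by rw [Ideal.map_mul, hQτ]
        exact this
      rw [h2] at h1
      exact h1.trans hL
  have hle : (F.I x).map (sp B σ) ≤ F.I x' := by
    rw [Ideal.map_le_iff_le_comap]
    intro z hz
    change sp B (incl A) (sp B σ z) ∈ I x'
    rw [sp_comp, hcomp, ← sp_comp, ← hIx]
    exact Ideal.mem_map_of_mem _ hz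
  exact ((F.rel x).baseChange P σ).eq_of_le (F.rel x') le_rfl hle

include P hπ in
/-- **Main theorem**: functions on a finite group of ideal classes. -/
theorem exists_functions (G : Set (A →ₐ[R] A)) (hG : ∀ σ ∈ G, π.comp σ = π)
    (hsurj : ∀ c : k, ∃ a : A, π a = c ∧ ∀ σ ∈ G, σ a = a) {M : Type*} [AddCommGroup M] [Finite M]
    (J : M → Ideal (K ⊗[R] B)) (hJ : ∀ x, J x ≠ ⊥) (hinj : ∀ x y, Lin (J x) (J y) → x = y)
    (hadd : ∀ x y, Lin (J (x + y)) (J x * J y)) :
    ∃ (H : Subalgebra A (M → A)) (E : Finset (M → A)),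
      Submodule.span A (E : Set (M → A)) = Subalgebra.toSubmodule H ∧
      (∀ (τ : K ≃ₐ[R] K) (σ : A →ₐ[R] A), σ ∈ G → (∀ a : A, (σ a : K) = τ a) → ∀ x x' : M,
        Lin ((J x).map (sp B (τ : K →ₐ[R] K))) (J x') → ∀ f ∈ E, f x' = σ (f x)) ∧
      (∀ x x', (∀ f ∈ E, f x = f x') → x = x') ∧
      (∀ y, ∀ f ∈ H, (fun x => f (x + y)) ∈ H) := by
  have : Infinite k := IsAlgClosed.instInfinite
  obtain ⟨F, hFS, hF⟩ := exists_frame P π hπ G hG hsurj J hJ hinj hadd
  obtain ⟨Gb, hGb⟩ := (P.finiteType.out : (⊤ : Subalgebra R B).FG)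
  obtain ⟨E, hE, hE'⟩ := F.exists_finset hπ (Gb : Set B) hGb Gb.finite_toSet
  refine ⟨F.H hπ, E, hE', ?_, ?_, fun y f hf => F.translate_mem' hπ y hf⟩
  · intro τ σ hσ hτσ x x' hL f hf
    exact F.equivariant hπ _ σ x x' (hF τ σ hσ hτσ x x' hL) (fun i => hFS i σ hσ) (hE hf)
  · intro x x' h
    apply F.separates hπ
    intro f hf
    have hf' : f ∈ Submodule.span A (E : Set (M → A)) := by rw [hE']; exact hf
    clear hf
    induction hf' using Submodule.span_induction with
    | mem f hf => exact h f hf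
    | zero => rfl
    | add f g _ _ hf hg => rw [Pi.add_apply, Pi.add_apply, hf, hg]
    | smul a f _ hf => rw [Pi.smul_apply, Pi.smul_apply, hf]

end Fermat.Agent.HopfFrame
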