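import Fermat.Agent.HopfFrame.Flat
import Fermat.Agent.HopfOrder.Output

/-!
# Flatness of finite subgroups of the Jacobian of a curve with a good integral model
-/

set_option autoImplicit false
set_option linter.unusedSectionVars false

open AlgebraicCurve WithZero Module
open scoped TensorProduct
open Fermat.Agent.RR Fermat.Agent.FF Fermat.Agent.Deuring Fermat.Agent.HopfOrder

namespace Fermat.Agent.HopfFrame

attribute [local instance] nonempty_place finiteResidue

section Cls

variable {K F : Type*} [Field K] [Field F] [Algebra K F] [IsFF K F] [IsAlgClosed K]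
  (P0 : Place K F)

/-- The class of `D - deg D · P0`. -/
noncomputable def cls (D : Divisor K F) : Pic0 K F :=
  Pic0.mk ⟨D - Finsupp.single P0 (Divisor.degree D), by
    rw [Divisor.mem_degZero, map_sub, degree_single_one, sub_self]⟩

lemma cls_eq_iff {D D' : Divisor K F} :
    cls P0 D = cls P0 D' ↔ ∃ h : F, h ≠ 0 ∧ ∀ v, v ≠ P0 → D v = D' v + v.ord h := by
  classical
  unfold cls Pic0.mk
  rw [eq_comm, QuotientAddGroup.eq, AddSubgroup.mem_addSubgroupOf]
  constructor
  · rintro ⟨h, hh, hD⟩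
    refine ⟨h, hh, fun v hv => ?_⟩
    have h1 := hD v
    simp only [AddSubgroup.coe_add, NegMemClass.coe_neg, Finsupp.add_apply, Finsupp.neg_apply,
      Finsupp.sub_apply, Finsupp.single_eq_of_ne hv] at h1
    omega
  · rintro ⟨h, hh, hD⟩
    have h0 : (-(D' - Finsupp.single P0 (Divisor.degree D')) +
        (D - Finsupp.single P0 (Divisor.degree D)) : Divisor K F) - div h =
        Finsupp.single P0 (D P0 - Divisor.degree D - (D' P0 - Divisor.degree D') - P0.ord h) := by
      ext v
      simp only [Finsupp.add_apply, Finsupp.neg_apply, Finsupp.sub_apply, div_apply]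
      by_cases hv : v = P0
      · subst hv
        simp only [Finsupp.single_eq_same]
        ring
      · simp only [Finsupp.single_eq_of_ne hv]
        have := hD v hv
        omega
    have h1 := congrArg Divisor.degree h0
    rw [map_sub, map_add, map_neg, map_sub, map_sub, degree_single_one, degree_single_one,
      degree_div, degree_single_one] at h1
    have h2 : (D P0 - Divisor.degree D - (D' P0 - Divisor.degree D') - P0.ord h) = 0 := by
      rw [← h1]; ring
    rw [h2, Finsupp.single_zero, sub_eq_zero] at h0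
    refine ⟨h, hh, fun v => ?_⟩
    have h3 := DFunLike.congr_fun h0 v
    rw [div_apply] at h3
    exact h3

lemma exists_effective (x : Pic0 K F) : ∃ D : Divisor K F, 0 ≤ D ∧ D P0 = 0 ∧ cls P0 D = x := by
  classical
  obtain ⟨⟨E, hE⟩, rfl⟩ := Pic0.mk_surjective x
  have hE0 : Divisor.degree E = 0 := hE
  have h1 := ell_large (K := K) (F := F)
    (D := E + Finsupp.single P0 ((2 * genusFF K F : ℕ) : ℤ)) (by
      rw [map_add, hE0, degree_single_one]; push_cast; omega)
  rw [map_add, hE0, degree_single_one] at h1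
  obtain ⟨f, hf, hf0⟩ : ∃ f ∈ riemannRochSpace (E + Finsupp.single P0 ((2 * genusFF K F : ℕ) : ℤ)),
      f ≠ 0 := by
    by_contra hcon
    push Not at hcon
    have h2 : riemannRochSpace (E + Finsupp.single P0 ((2 * genusFF K F : ℕ) : ℤ)) = ⊥ :=
      (Submodule.eq_bot_iff _).mpr hcon
    rw [ell, h2, finrank_bot] at h1
    push_cast at h1
    omega
  rw [mem_L_iff hf0] at hf
  let D0 : Divisor K F := E + div f
  refine ⟨D0 - Finsupp.single P0 (D0 P0), ?_, ?_, ?_⟩
  · intro v
    rw [Finsupp.coe_zero, Pi.zero_apply, Finsupp.sub_apply]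
    by_cases hv : v = P0
    · subst hv
      rw [Finsupp.single_eq_same, sub_self]
    · rw [Finsupp.single_eq_of_ne hv, sub_zero, Finsupp.add_apply, div_apply]
      have := hf v
      rw [Finsupp.add_apply, Finsupp.single_eq_of_ne hv, add_zero] at this
      omega
  · rw [Finsupp.sub_apply, Finsupp.single_eq_same, sub_self]
  · have hmk : Pic0.mk ⟨E, hE⟩ = cls P0 E := by
      unfold cls
      congr 1
      apply Subtype.ext
      change E = E - _
      rw [hE0, Finsupp.single_zero, sub_zero]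
    rw [hmk, cls_eq_iff]
    refine ⟨f, hf0, fun v hv => ?_⟩
    rw [Finsupp.sub_apply, Finsupp.single_eq_of_ne hv, sub_zero, Finsupp.add_apply, div_apply]

lemma cls_add (D D' : Divisor K F) : cls P0 (D + D') = cls P0 D + cls P0 D' := by
  unfold cls
  rw [← Pic0.mk_add]
  congr 1
  apply Subtype.ext
  change D + D' - Finsupp.single P0 (Divisor.degree (D + D')) = (D - _) + (D' - _)
  rw [map_add, Finsupp.single_add]
  abel

lemma smul_cls (g : SemilinearAut K F) (hg : g • P0 = P0) (D : Divisor K F) :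
    g • cls P0 D = cls P0 (g • D) := by
  unfold cls
  rw [SemilinearAut.pic0_smul_mk]
  congr 1
  apply Subtype.ext
  rw [SemilinearAut.coe_degZeroSMulHom]
  change g • (D - Finsupp.single P0 (Divisor.degree D)) =
    g • D - Finsupp.single P0 (Divisor.degree (g • D))
  rw [smul_sub, SemilinearAut.smul_single, hg, SemilinearAut.degree_smul]

end Cls

section Conv

variable {K F : Type*} [Field K] [Field F] [Algebra K F] [IsFF K F] [IsAlgClosed K]
  (P0 : Place K F)
variable {C : Type*} [CommRing C] [Algebra K C] (θ : C →ₐ[K] F) (hθ : ∀ z, θ z ∈ regRing P0)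
  (hi : Function.Injective θ) (hs : ∀ f ∈ regRing P0, ∃ z, θ z = f)

include hi hs in
/-- Linearly equivalent ideals come from linearly equivalent divisors. -/
theorem of_lin_IF (P : PoleBasis K C) [IsDedekindDomain C] {D D' : Divisor K F} (hD : 0 ≤ D)
    (hD' : 0 ≤ D') (hP : D P0 = 0) (hP' : D' P0 = 0)
    (h : Lin (IF P0 θ hθ D) (IF P0 θ hθ D')) : cls P0 D = cls P0 D' := by
  obtain ⟨α, β, hα, hβ, hab⟩ := h
  have hα0 := θ_ne_zero θ hi hα
  have hβ0 := θ_ne_zero θ hi hβ
  rw [span_eq_IF P0 θ hθ hi hs hα, span_eq_IF P0 θ hθ hi hs hβ,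
    IF_mul P0 θ hθ hs P (zdiv_nonneg P0 (hθ α)) hD (zdiv_same P0 _) hP,
    IF_mul P0 θ hθ hs P (zdiv_nonneg P0 (hθ β)) hD' (zdiv_same P0 _) hP'] at hab
  have h1 := IF_injective P0 θ hθ hs (add_nonneg (zdiv_nonneg P0 (hθ α)) hD)
    (add_nonneg (zdiv_nonneg P0 (hθ β)) hD')
    (by rw [Finsupp.add_apply, zdiv_same, hP, add_zero])
    (by rw [Finsupp.add_apply, zdiv_same, hP', add_zero]) hab
  rw [cls_eq_iff]
  refine ⟨θ β / θ α, div_ne_zero hβ0 hα0, fun v hv => ?_⟩
  have h2 := DFunLike.congr_fun h1 v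
  rw [Finsupp.add_apply, Finsupp.add_apply, zdiv_ne P0 _ hv, zdiv_ne P0 _ hv] at h2
  rw [div_eq_mul_inv, v.ord_mul hβ0 (inv_ne_zero hα0), v.ord_inv]
  omega

end Conv

section Equiv

variable {K F k F' : Type*} [Field K] [Field F] [Algebra K F] [Field k] [Field F'] [Algebra k F']
  [IsFF K F] [IsFF k F'] [IsAlgClosed K] [IsAlgClosed k]
variable {G : GaussData K F k F'} {P0 : Place K F}
variable {R : Type*} [CommRing R] [Algebra R K] [Algebra R k] [Algebra R F] [IsScalarTower R K F]
  [Algebra R G.A] [IsScalarTower R G.A K] [Algebra R F'] [IsScalarTower R k F']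
variable (S : Setup G P0 R)

lemma evK_sp_smul (g : SemilinearAut K F) (σ : K →ₐ[R] K)
    (h1 : ∀ a : K, σ a = SemilinearAut.baseAut g a)
    (h2 : ∀ b : S.B, g • (b : F) = b) (z : K ⊗[R] S.B) :
    S.evK (PoleBasis.sp S.B σ z) = g • S.evK z := by
  induction z with
  | zero => rw [map_zero, map_zero, smul_zero]
  | tmul a b =>
    rw [PoleBasis.sp_tmul, Setup.evK_tmul, Setup.evK_tmul, h1, Algebra.smul_def,
      Algebra.smul_def, smul_mul', SemilinearAut.smul_algebraMap, h2]
  | add x y hx hy => rw [map_add, map_add, map_add, smul_add, hx, hy]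

/-- Equivariance of the ideal of a divisor, over `K`. -/
theorem map_IK_smul (g : SemilinearAut K F) (hg : g • P0 = P0) (σ : K ≃ₐ[R] K)
    (h1 : ∀ a : K, σ a = SemilinearAut.baseAut g a)
    (h2 : ∀ b : S.B, g • (b : F) = b) (D : Divisor K F) :
    (S.IK D).map (PoleBasis.sp S.B (σ : K →ₐ[R] K)) = S.IK (g • D) := by
  apply le_antisymm
  · rw [Ideal.map_le_iff_le_comap]
    rintro z ⟨n, hn⟩
    refine ⟨n, ?_⟩
    change S.evK (PoleBasis.sp S.B (σ : K →ₐ[R] K) z) ∈ _
    rw [evK_sp_smul S g (σ : K →ₐ[R] K) h1 h2]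
    exact smul_mem_LD g hg hn
  · rintro z ⟨n, hn⟩
    have h3 : ∀ a : K, σ.symm a = SemilinearAut.baseAut g⁻¹ a := by
      intro a
      apply σ.injective
      rw [AlgEquiv.apply_symm_apply, h1]
      exact ((SemilinearAut.baseAut g).apply_symm_apply a).symm
    have h4 : ∀ b : S.B, g⁻¹ • (b : F) = b := fun b => by
      rw [inv_smul_eq_iff, h2]
    have h5 : PoleBasis.sp S.B (σ : K →ₐ[R] K) (PoleBasis.sp S.B (σ.symm : K →ₐ[R] K) z) = z := by
      rw [PoleBasis.sp_comp]
      have : (σ : K →ₐ[R] K).comp (σ.symm : K →ₐ[R] K) = AlgHom.id R K :=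
        AlgHom.ext fun a => σ.apply_symm_apply a
      rw [this]
      simp [PoleBasis.sp]
    rw [← h5]
    apply Ideal.mem_map_of_mem
    refine ⟨n, ?_⟩
    change S.evK (PoleBasis.sp S.B (σ.symm : K →ₐ[R] K) z) ∈ _
    rw [evK_sp_smul S g⁻¹ (σ.symm : K →ₐ[R] K) h3 h4]
    have h6 := smul_mem_LD g⁻¹ (P0 := P0) (by rw [inv_smul_eq_iff, hg]) hn
    rwa [inv_smul_smul] at h6

end Equiv

section Final

open Fermat.Agent.FlatGS Fermat.Agent.LatticeFlat

variable {p : ℕ} {F : Type*} {k : Type} {F' : Type*} [Field F] [Algebra Om F] [Field k] [Field F']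
  [Algebra k F'] [IsFF Om F] [IsFF k F'] [IsAlgClosed k]
variable {G : GaussData Om F k F'} {P0 : Place Om F}
variable [Algebra (Rp p) k] [Algebra (Rp p) F] [IsScalarTower (Rp p) Om F] [Algebra (Rp p) G.A]
  [IsScalarTower (Rp p) G.A Om] [Algebra (Rp p) F'] [IsScalarTower (Rp p) k F']

/-- **Flatness** of the finite Galois stable subgroups of the Jacobian of a curve with a good
integral model. -/
theorem isFlatModule_of_setup (S : Setup G P0 (Rp p)) (hp : p.Prime) (hA : G.A.LiesOverPrime p)
    (g : GQ → SemilinearAut Om F) (hg0 : ∀ σ, g σ • P0 = P0)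
    (hgb : ∀ σ a, SemilinearAut.baseAut (g σ) a = σ a) (hgB : ∀ σ, ∀ b : S.B, g σ • (b : F) = b)
    {M : Type} [AddCommGroup M] [Finite M] (ι : M →+ Pic0 Om F) (hι : Function.Injective ι)
    {act : GQ → M → M} (h : GAct act) (hact : ∀ σ x, ι (act σ x) = g σ • ι x) :
    IsFlatModule p act := by
  have hDK : IsDedekindDomain (Om ⊗[Rp p] S.B) := S.isDedekindDomain_K
  have hDk : IsDedekindDomain (k ⊗[Rp p] S.B) := S.isDedekindDomain_k
  choose D hD hDP hcls using fun x : M => exists_effective P0 (ι x)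
  have hmem := S.isBC_K.mem
  have hinj := S.isBC_K.inj
  have hsurj := S.isBC_K.surj
  have hlin : ∀ {D D' : Divisor Om F}, 0 ≤ D → 0 ≤ D' → cls P0 D = cls P0 D' →
      Lin (S.IK D) (S.IK D') := by
    intro D D' h0 h0' hc
    obtain ⟨f, hf, hff⟩ := (cls_eq_iff P0).mp hc
    exact lin_IF P0 S.evK hmem hinj hsurj h0 h0' hf hff
  refine isFlatModule_of_model S.π S.π_surjective S.P hp hA h ?_ (fun x => S.IK (D x)) ?_ ?_ ?_ ?_
  · intro σ x y
    apply hι
    rw [hact, map_add, smul_add, map_add, hact, hact]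
  · intro x
    exact (S.isRel_IK (hD x) (hDP x) (d := (Divisor.degree (D x)).toNat)
      (by have := degree_nonneg (hD x); omega)).ne_bot (S.P.baseChange Om)
  · intro x y hxy
    apply hι
    rw [← hcls x, ← hcls y]
    exact of_lin_IF P0 S.evK hmem hinj hsurj (S.P.baseChange Om) (hD x) (hD y) (hDP x) (hDP y) hxy
  · intro x y
    change Lin (S.IK (D (x + y))) (S.IK (D x) * S.IK (D y))
    unfold Setup.IK
    rw [IF_mul P0 S.evK hmem hsurj (S.P.baseChange Om) (hD x) (hD y) (hDP x) (hDP y)]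
    refine hlin (hD _) (add_nonneg (hD x) (hD y)) ?_
    rw [cls_add, hcls, hcls, hcls, map_add]
  · intro σ _ x
    rw [map_IK_smul S (g σ) (hg0 σ) (galR p σ) (fun a => (hgb σ a).symm) (hgB σ)]
    refine hlin ?_ (hD _) ?_
    · intro v
      rw [SemilinearAut.divisor_smul_apply]
      exact hD x _
    · rw [← smul_cls P0 (g σ) (hg0 σ), hcls, hcls, hact]

end Final

end Fermat.Agent.HopfFrame
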