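import Fermat.Agent.HopfOrder.Special

/-!
# Good ideals of the generic fibre

`K` is a field with valuation ring `A` and residue field `k` (`π : A → k`). An ideal `J` of the
generic fibre `K ⊗ B` is *good* if it contains an element of `A ⊗ B` with unit leading coefficient;
then `J ∩ (A ⊗ B)` is a relative divisor. The reduction `red J` is multiplicative on good ideals.
-/

set_option autoImplicit false

open scoped TensorProduct

namespace Fermat.Agent.HopfFrame

open Fermat.Agent.HopfOrder Fermat.Agent.HopfOrder.PoleBasis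

variable {R B : Type*} [CommRing R] [CommRing B] [Algebra R B] (P : PoleBasis R B)
variable {K : Type*} [Field K] [Algebra R K] (A : ValuationSubring K) [Algebra R A]
  [IsScalarTower R A K]
variable {k : Type*} [Field k] [Algebra R k] (π : A →ₐ[R] k)

/-- The trace of an ideal on the integral model. -/
noncomputable def rA (J : Ideal (K ⊗[R] B)) : Ideal (A ⊗[R] B) := J.comap (sp B (incl A))

/-- The reduction of an ideal. -/
noncomputable def red (J : Ideal (K ⊗[R] B)) : Ideal (k ⊗[R] B) := (rA A J).map (sp B π)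

variable {A}

@[simp] lemma mem_rA {J : Ideal (K ⊗[R] B)} {x : A ⊗[R] B} : x ∈ rA A J ↔ sp B (incl A) x ∈ J :=
  Iff.rfl

lemma rA_mono {J J' : Ideal (K ⊗[R] B)} (h : J ≤ J') : rA A J ≤ rA A J' := Ideal.comap_mono h

lemma red_mono {J J' : Ideal (K ⊗[R] B)} (h : J ≤ J') : red A π J ≤ red A π J' :=
  Ideal.map_mono (rA_mono h)

lemma mem_red (hπ : Function.Surjective π) {J : Ideal (K ⊗[R] B)} {y : k ⊗[R] B} :
    y ∈ red A π J ↔ ∃ x, sp B (incl A) x ∈ J ∧ sp B π x = y :=
  Ideal.mem_map_iff_of_surjective _ (sp_surjective π hπ)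

include P in
/-- Clearing denominators. -/
lemma exists_smul_mem (x : K ⊗[R] B) : ∃ (c : K) (v : A ⊗[R] B), c ≠ 0 ∧
    sp B (incl A) v = c • x := by
  classical
  let f := (P.bas K).repr x
  -- a common denominator
  have h1 : ∃ c : K, c ≠ 0 ∧ ∀ i, c * f i ∈ A := by
    by_cases hne : f.support.Nonempty
    · obtain ⟨j, hj, hmax⟩ := f.support.exists_max_image (fun i => A.valuation (f i)) hne
      have hj0 : f j ≠ 0 := Finsupp.mem_support_iff.mp hj
      refine ⟨(f j)⁻¹, inv_ne_zero hj0, fun i => ?_⟩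
      rw [← A.valuation_le_one_iff, map_mul, map_inv₀]
      by_cases hi : i ∈ f.support
      · have h1 := hmax i hi
        have h2 : A.valuation (f j) ≠ 0 := (A.valuation.ne_zero_iff).mpr hj0
        rw [inv_mul_le_iff₀ (zero_lt_iff.mpr h2), mul_one]
        exact h1
      · rw [Finsupp.notMem_support_iff.mp hi, map_zero, mul_zero]
        exact zero_le_one
    · refine ⟨1, one_ne_zero, fun i => ?_⟩
      have : i ∉ f.support := fun hi => hne ⟨i, hi⟩
      rw [Finsupp.notMem_support_iff.mp this, mul_zero]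
      exact A.zero_mem
  obtain ⟨c, hc, hmem⟩ := h1
  let v : A ⊗[R] B := ∑ i ∈ f.support, (⟨c * f i, hmem i⟩ : A) • P.bas A i
  refine ⟨c, v, hc, ?_⟩
  have h2 : x = ∑ i ∈ f.support, f i • P.bas K i := by
    conv_lhs => rw [← (P.bas K).linearCombination_repr x]
    rw [Finsupp.linearCombination_apply, Finsupp.sum]
  conv_rhs => rw [h2]
  rw [map_sum, Finset.smul_sum]
  refine Finset.sum_congr rfl fun i _ => ?_
  rw [sp_smul, P.sp_bas, smul_smul]
  rfl

include P in
lemma map_rA (J : Ideal (K ⊗[R] B)) : (rA A J).map (sp B (incl A)) = J := by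
  apply le_antisymm
  · exact Ideal.map_comap_le
  · intro x hx
    obtain ⟨c, v, hc, hv⟩ := exists_smul_mem P (A := A) x
    have h1 : v ∈ rA A J := by
      rw [mem_rA, hv, Algebra.smul_def]
      exact J.mul_mem_left _ hx
    have h2 : x = algebraMap K (K ⊗[R] B) c⁻¹ * sp B (incl A) v := by
      rw [hv, ← Algebra.smul_def, smul_smul, inv_mul_cancel₀ hc, one_smul]
    rw [h2]
    exact Ideal.mul_mem_left _ _ (Ideal.mem_map_of_mem _ h1)

include P in
lemma sp_incl_injective : Function.Injective (sp B (incl (R := R) A)) := by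
  rw [injective_iff_map_eq_zero]
  intro x hx
  apply (P.bas A).repr.map_eq_zero_iff.mp
  ext i
  have h := P.repr_sp (incl (R := R) A) x i
  rw [hx, map_zero, Finsupp.zero_apply] at h
  rw [Finsupp.zero_apply]
  exact congrArg Subtype.val (incl_injective (R := R) A (h.symm.trans (map_zero _).symm))

variable (hπ : Function.Surjective π)

include P hπ in
/-- **Gauss lemma**. -/
lemma gauss [IsDomain (k ⊗[R] B)] {x y : A ⊗[R] B} (hx : sp B π x ≠ 0)
    {w : K ⊗[R] B} (hxw : sp B (incl A) x * w = sp B (incl A) y) :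
    ∃ w' : A ⊗[R] B, sp B (incl A) w' = w ∧ x * w' = y := by
  have key : ∃ w' : A ⊗[R] B, sp B (incl A) w' = w := by
    rcases eq_or_ne w 0 with rfl | hw
    · exact ⟨0, map_zero _⟩
    obtain ⟨c, v, hc, hv, hv0⟩ := exists_primitive P A π hw
    rcases A.mem_or_inv_mem c with hcA | hcA
    · -- `x v = c y`
      have h1 : x * v = (⟨c, hcA⟩ : A) • y := by
        apply sp_incl_injective P (A := A)
        rw [map_mul, hv, mul_smul_comm, hxw, sp_smul]
        rfl
      have hne : π ⟨c, hcA⟩ ≠ 0 := by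
        intro h2
        have h3 := congrArg (sp B π) h1
        rw [map_mul, sp_smul, h2, zero_smul] at h3
        rcases mul_eq_zero.mp h3 with h4 | h4
        · exact hx h4
        · exact hv0 h4
      obtain ⟨d, hd⟩ := (isUnit_of_map_ne_zero π hπ hne).exists_right_inv
      have hd' : c * (d : K) = 1 := congrArg Subtype.val hd
      refine ⟨d • v, ?_⟩
      rw [sp_smul, hv, smul_smul]
      change ((d : K) * c) • w = w
      rw [mul_comm, hd', one_smul]
    · refine ⟨(⟨c⁻¹, hcA⟩ : A) • v, ?_⟩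
      rw [sp_smul, hv, smul_smul]
      change (c⁻¹ * c) • w = w
      rw [inv_mul_cancel₀ hc, one_smul]
  obtain ⟨w', rfl⟩ := key
  refine ⟨w', rfl, sp_incl_injective P (A := A) ?_⟩
  rw [map_mul, hxw]

include P hπ in
/-- The reduction of a principal ideal. -/
lemma red_span [IsDomain (k ⊗[R] B)] {x : A ⊗[R] B} (hx : sp B π x ≠ 0) :
    red A π (Ideal.span {sp B (incl A) x}) = Ideal.span {sp B π x} := by
  apply le_antisymm
  · intro y hy
    obtain ⟨z, hz, rfl⟩ := (mem_red π hπ).mp hy
    obtain ⟨w, hw⟩ := Ideal.mem_span_singleton'.mp hz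
    rw [mul_comm] at hw
    obtain ⟨w', rfl, hw'⟩ := gauss P π hπ hx hw
    rw [← hw', map_mul]
    exact Ideal.mul_mem_right _ _ (Ideal.mem_span_singleton_self _)
  · rw [Ideal.span_singleton_le_iff_mem, mem_red π hπ]
    exact ⟨x, Ideal.mem_span_singleton_self _, rfl⟩

variable (A)

/-- Good ideals. -/
def Good (J : Ideal (K ⊗[R] B)) : Prop :=
  ∃ n, P.m0 < n ∧ ∃ s ∈ (P.baseChange A).fil n, IsUnit ((P.baseChange A).lc n s) ∧
    sp B (incl A) s ∈ J

variable {A}

lemma Good.mono {J J' : Ideal (K ⊗[R] B)} (h : Good P A J) (hle : J ≤ J') : Good P A J' := by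
  obtain ⟨n, hn, s, hs, hu, hsJ⟩ := h
  exact ⟨n, hn, s, hs, hu, hle hsJ⟩

lemma Good.mul {J J' : Ideal (K ⊗[R] B)} (h : Good P A J) (h' : Good P A J') :
    Good P A (J * J') := by
  obtain ⟨n, hn, s, hs, hu, hsJ⟩ := h
  obtain ⟨n', hn', s', hs', hu', hsJ'⟩ := h'
  refine ⟨n + n', by omega, s * s', (P.baseChange A).mul_mem_fil hn.le hn'.le hs hs', ?_, ?_⟩
  · rw [(P.baseChange A).lc_mul hn hn' hs hs']
    exact hu.mul hu'
  · rw [map_mul]
    exact Ideal.mul_mem_mul hsJ hsJ'

lemma Good.top : Good P A (⊤ : Ideal (K ⊗[R] B)) := by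
  have hg := P.hg
  refine ⟨P.m0 + 1, by omega, (P.baseChange A).b (P.m0 + 1 - P.g),
    (P.baseChange A).b_mem_fil (by rw [baseChange_g]; omega), ?_, trivial⟩
  have := (P.baseChange A).lc_b (n := P.m0 + 1)
  rw [baseChange_g] at this
  rw [this]
  exact isUnit_one

lemma Good.prod {ι : Type*} (s : Finset ι) {J : ι → Ideal (K ⊗[R] B)}
    (h : ∀ i ∈ s, Good P A (J i)) : Good P A (∏ i ∈ s, J i) := by
  classical
  induction s using Finset.induction_on with
  | empty => rw [Finset.prod_empty, Ideal.one_eq_top]; exact Good.top P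
  | insert a s ha ih =>
    rw [Finset.prod_insert ha]
    exact (h a (Finset.mem_insert_self a s)).mul P (ih fun i hi => h i (Finset.mem_insert_of_mem hi))

variable [IsDomain (k ⊗[R] B)]

include hπ in
lemma Good.finite {J : Ideal (K ⊗[R] B)} (h : Good P A J) :
    Module.Finite A (A ⊗[R] B ⧸ rA A J) := by
  obtain ⟨n, hn, s, hs, hu, hsJ⟩ := h
  have hrel := isRel_span_singleton P π hπ hn hs hu
  have := hrel.finite
  have hle : Ideal.span {s} ≤ rA A J := (Ideal.span_singleton_le_iff_mem _).mpr hsJ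
  exact Module.Finite.of_surjective (Ideal.Quotient.factorₐ A hle).toLinearMap
    (Ideal.Quotient.factor_surjective hle)

omit [IsDomain (k ⊗[R] B)] in
lemma isTorsionFree_quot (J : Ideal (K ⊗[R] B)) :
    Module.IsTorsionFree A (A ⊗[R] B ⧸ rA A J) := by
  rw [Module.isTorsionFree_iff_smul_eq_zero]
  intro a x hax
  by_cases ha : a = 0
  · exact Or.inl ha
  right
  obtain ⟨x, rfl⟩ := Ideal.Quotient.mk_surjective x
  have h1 : a • x ∈ rA A J := Ideal.Quotient.eq_zero_iff_mem.mp hax
  rw [Ideal.Quotient.eq_zero_iff_mem, mem_rA]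
  rw [mem_rA, sp_smul] at h1
  have ha' : (a : K) ≠ 0 := fun h => ha (Subtype.ext h)
  have h2 : sp B (incl A) x = algebraMap K (K ⊗[R] B) (a : K)⁻¹ * ((incl (R := R) A a) • sp B (incl A) x) := by
    rw [← Algebra.smul_def, smul_smul]
    change _ = ((a : K)⁻¹ * (a : K)) • _
    rw [inv_mul_cancel₀ ha', one_smul]
  rw [h2]
  exact J.mul_mem_left _ h1

include hπ in
/-- The trace of a good ideal is a relative divisor. -/
lemma Good.isRel {J : Ideal (K ⊗[R] B)} (h : Good P A J) {d : ℕ} (hd : IsRel K J d) :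
    IsRel A (rA A J) d := by
  have := h.finite P π hπ
  have h1 := isTorsionFree_quot (A := A) J
  have h2 : Module.Flat A (A ⊗[R] B ⧸ rA A J) := by
    rw [Module.Flat.flat_iff_torsion_eq_bot_of_isBezout,
      ← Submodule.isTorsionFree_iff_torsion_eq_bot]
    exact h1
  have h3 : Module.Free A (A ⊗[R] B ⧸ rA A J) := Module.free_of_flat_of_isLocalRing
  have h4 : IsRel A (rA A J) (Module.finrank A (A ⊗[R] B ⧸ rA A J)) :=
    ⟨(Module.finBasis A _).equivFun⟩
  have h5 := h4.baseChange P (incl (R := R) A)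
  rw [map_rA P] at h5
  rwa [h5.degree_unique hd] at h4

include hπ in
lemma Good.isRel_red {J : Ideal (K ⊗[R] B)} (h : Good P A J) {d : ℕ} (hd : IsRel K J d) :
    IsRel k (red A π J) d :=
  (h.isRel P π hπ hd).baseChange P π

end Fermat.Agent.HopfFrame
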