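import Fermat.Agent.HopfFrame.FromSetup
import Fermat.Agent.Cofaith.Finite
import Fermat.Statements.S19

/-!
# The Galois action on the torsion of `J₀(N)`
-/

set_option autoImplicit false

open AlgebraicCurve ModularCurve
open Fermat.Agent.FlatGS Fermat.Agent.LatticeFlat

namespace Fermat.Agent.HopfFrame

/-- The action of the absolute Galois group on `J₀(N)[ℓ^k]`. -/
noncomputable def actT (N ℓ k : ℕ) (σ : GQ)
    (x : ↥(Submodule.torsionBy ℤ (JZero N) ((ℓ : ℤ) ^ k))) :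
    ↥(Submodule.torsionBy ℤ (JZero N) ((ℓ : ℤ) ^ k)) :=
  ⟨σ • (x : JZero N), by
    rw [Submodule.mem_torsionBy_iff]
    have h1 : σ • (((ℓ : ℤ) ^ k) • (x : JZero N)) = ((ℓ : ℤ) ^ k) • σ • (x : JZero N) :=
      map_zsmul (DistribSMul.toAddMonoidHom (JZero N) σ) _ _
    rw [← h1, (Submodule.mem_torsionBy_iff _ _).mp x.2, smul_zero]⟩

@[simp] lemma coe_actT (N ℓ k : ℕ) (σ : GQ)
    (x : ↥(Submodule.torsionBy ℤ (JZero N) ((ℓ : ℤ) ^ k))) :
    (actT N ℓ k σ x : JZero N) = σ • (x : JZero N) := rfl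

lemma gAct_actT (N ℓ k : ℕ) [NeZero N] : GAct (actT N ℓ k) where
  one x := Subtype.ext (one_smul _ _)
  mul σ τ x := Subtype.ext (mul_smul _ _ _)
  exists_field x := by
    obtain ⟨L, hL, h⟩ := Fermat.Agent.Cofaith.exists_fixing_JZero N (x : JZero N)
    exact ⟨L, hL, fun σ hσ => Subtype.ext (h σ hσ)⟩

lemma finite_torsionBy (N ℓ k : ℕ) [NeZero N] (hℓ : ℓ ≠ 0) :
    Finite ↥(Submodule.torsionBy ℤ (JZero N) ((ℓ : ℤ) ^ k)) := by
  have hn : ℓ ^ k ≠ 0 := pow_ne_zero _ hℓ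
  have := Fermat.Agent.Cofaith.finite_torsion N hn
  refine Finite.of_injective (β := {x : JZero N // (ℓ ^ k) • x = 0})
    (fun x => ⟨(x : JZero N), ?_⟩) ?_
  · have h1 := (Submodule.mem_torsionBy_iff _ _).mp x.2
    rw [← natCast_zsmul, Nat.cast_pow]
    exact h1
  · intro x y h
    exact Subtype.ext (congrArg (fun z : {x : JZero N // (ℓ ^ k) • x = 0} => (z : JZero N)) h)

/-- The statement of S19 from the flatness of the Galois module. -/
theorem conclusion_of_flat {N ℓ k : ℕ} (h : IsFlatModule ℓ (actT N ℓ k)) :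
    ∃ (H : Type) (_ : CommRing H) (_ : HopfAlgebra (GaloisRep.ratLocalizedAt ℓ) H),
      Module.Finite (GaloisRep.ratLocalizedAt ℓ) H ∧ Module.Flat (GaloisRep.ratLocalizedAt ℓ) H ∧
      Coalgebra.IsCocomm (GaloisRep.ratLocalizedAt ℓ) H ∧
      ∃ e : WithConv (H →ₐ[GaloisRep.ratLocalizedAt ℓ] AlgebraicClosure ℚ) ≃
          ↥(Submodule.torsionBy ℤ (JZero N) ((ℓ : ℤ) ^ k)),
        (∀ f g, e (f * g) = e f + e g) ∧
        ∀ (σ : AlgebraicClosure ℚ ≃ₐ[ℚ] AlgebraicClosure ℚ)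
          (f g : WithConv (H →ₐ[GaloisRep.ratLocalizedAt ℓ] AlgebraicClosure ℚ)),
          (∀ h : H, g h = σ (f h)) → ((e g : JZero N)) = σ • (e f : JZero N) := by
  obtain ⟨H, _, _, h1, h2, h3, e, he, heq⟩ := h
  exact ⟨H, _, _, h1, h2, h3, e, he, fun σ f g hfg => congrArg Subtype.val (heq σ f g hfg)⟩

end Fermat.Agent.HopfFrame
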