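import Fermat.Agent.HopfFrame.Select

/-!
# The moving theorem

For finitely many ideal classes of the generic fibre there is a product `Q` of integral points fixed
by inertia such that each class times `Q⁻¹` contains a unique ideal of codimension `g`; this ideal
is good, its reduction is nonspecial and disjoint from any given finite set of points.
-/

set_option autoImplicit false

open scoped TensorProduct

namespace Fermat.Agent.HopfFrame

open Fermat.Agent.HopfOrder Fermat.Agent.HopfOrder.PoleBasis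

section Field

variable {K C : Type*} [Field K] [CommRing C] [Algebra K C] (P : PoleBasis K C)

/-- sections of an ideal of bounded pole order -/
def sec (E : Ideal C) (n : ℕ) : Submodule K C := E.restrictScalars K ⊓ P.fil n

lemma mem_sec {E : Ideal C} {n : ℕ} {x : C} : x ∈ sec P E n ↔ x ∈ E ∧ x ∈ P.fil n := Iff.rfl

instance finite_sec (E : Ideal C) (n : ℕ) : Module.Finite K (sec P E n) :=
  Submodule.finiteDimensional_of_le (inf_le_right : sec P E n ≤ P.fil n)

/-- the dimension of the space of sections, for large `n`. -/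
lemma finrank_sec {E : Ideal C} {e : ℕ} (hE : IsRel K E e) :
    ∃ n0, ∀ n, n0 ≤ n → P.m0 ≤ n → Module.finrank K (sec P E n) + e = n + 1 - P.g := by
  obtain ⟨n0, hn0⟩ := exists_fil_sup P hE
  refine ⟨n0, fun n hn hm => ?_⟩
  obtain ⟨π, hs, hk⟩ := hE.exists_coord
  let f : P.fil n →ₗ[K] (Fin e → K) := π ∘ₗ (P.fil n).subtype
  have hf : Function.Surjective f := by
    intro y
    obtain ⟨x, rfl⟩ := hs y
    obtain ⟨z, hz, hxz⟩ := hn0 n hn x
    refine ⟨⟨z, hz⟩, ?_⟩
    rw [hk, map_sub, sub_eq_zero] at hxz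
    exact hxz.symm
  have h1 := f.finrank_range_add_finrank_ker
  rw [LinearMap.range_eq_top.mpr hf, finrank_top, P.finrank_fil] at h1
  simp only [Module.finrank_fintype_fun_eq_card, Fintype.card_fin] at h1
  have h2 : Module.finrank K (LinearMap.ker f) = Module.finrank K (sec P E n) := by
    let g : LinearMap.ker f ≃ₗ[K] sec P E n :=
      { toFun := fun x => ⟨x.1.1, (hk _).mpr x.2, x.1.2⟩
        map_add' := fun _ _ => rfl
        map_smul' := fun _ _ => rfl
        invFun := fun x => ⟨⟨x.1, x.2.2⟩, (hk _).mp x.2.1⟩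
        left_inv := fun _ => rfl
        right_inv := fun _ => rfl }
    exact g.finrank_eq
  omega

/-- existence of nonzero sections -/
lemma exists_sec {E : Ideal C} {e n : ℕ} (hE : IsRel K E e) (hn : e + P.g < n + 1) :
    ∃ x ∈ sec P E n, x ≠ 0 := by
  by_contra hcon
  push Not at hcon
  obtain ⟨π, hs, hk⟩ := hE.exists_coord
  let f : P.fil n →ₗ[K] (Fin e → K) := π ∘ₗ (P.fil n).subtype
  have hf : Function.Injective f := by
    rw [injective_iff_map_eq_zero]
    intro x hx
    exact Subtype.ext (hcon _ ⟨(hk _).mpr hx, x.2⟩)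
  have h1 := LinearMap.finrank_le_finrank_of_injective hf
  rw [P.finrank_fil] at h1
  simp only [Module.finrank_fintype_fun_eq_card, Fintype.card_fin] at h1
  omega

include P in
lemma isRel_prod [IsDedekindDomain C] {ι : Type*} (s : Finset ι) {J : ι → Ideal C}
    (h : ∀ i ∈ s, IsRel K (J i) 1) : IsRel K (∏ i ∈ s, J i) s.card := by
  classical
  induction s using Finset.induction_on with
  | empty =>
    rw [Finset.prod_empty, Ideal.one_eq_top, Finset.card_empty]
    exact isRel_of_coord (0 : C →ₗ[K] (Fin 0 → K)) (fun y => ⟨0, Subsingleton.elim _ _⟩)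
      (fun x => ⟨fun _ => Subsingleton.elim _ _, fun _ => trivial⟩)
  | insert a s ha ih =>
    have h1 := h a (Finset.mem_insert_self a s)
    have h2 := ih fun i hi => h i (Finset.mem_insert_of_mem hi)
    rw [Finset.prod_insert ha, Finset.card_insert_of_notMem ha, add_comm]
    exact h1.mul_dedekind h2 (h1.ne_bot P) (h2.ne_bot P)

end Field

variable {R B : Type*} [CommRing R] [CommRing B] [Algebra R B] (P : PoleBasis R B)
variable {K : Type*} [Field K] [Algebra R K] {A : ValuationSubring K} [Algebra R A]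
  [IsScalarTower R A K]
variable {k : Type*} [Field k] [Algebra R k] (π : A →ₐ[R] k) (hπ : Function.Surjective π)
variable [IsDedekindDomain (K ⊗[R] B)] [IsAlgClosed K] [IsDedekindDomain (k ⊗[R] B)]
  [IsAlgClosed k]

omit [IsAlgClosed K] [IsAlgClosed k] in
include hπ in
/-- The core of the moving theorem, for one good ideal `E` of codimension `e` such that
`red E` has no sections of pole order less than `e + g`. -/
theorem move_one {E : Ideal (K ⊗[R] B)} (hE : Good P A E) {e : ℕ} (he : IsRel K E e)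
    (hn : P.m0 < e + P.g)
    (h0 : ∀ x ∈ red A π E, x ∈ (P.baseChange k).fil (e + P.g - 1) → x = 0) :
    ∃ (I : Ideal (K ⊗[R] B)) (s : K ⊗[R] B) (sb : k ⊗[R] B), Good P A I ∧ IsRel K I P.g ∧ s ≠ 0 ∧
      E * I = Ideal.span {s} ∧ Nonsp (P.baseChange k) (red A π I) ∧
      red A π E * red A π I = Ideal.span {sb} ∧ sb ≠ 0 ∧
      sb ∈ (P.baseChange k).fil (e + P.g) ∧
      (∀ (I' : Ideal (K ⊗[R] B)) (u : K ⊗[R] B), IsRel K I' P.g → u ≠ 0 →
        E * I' = Ideal.span {u} → I' = I) := by
  let Pk := P.baseChange k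
  let PK := P.baseChange K
  have hEk : IsRel k (red A π E) e := hE.isRel_red P π hπ he
  -- sections with vanishing leading coefficient vanish
  have hlc : ∀ x ∈ red A π E, x ∈ Pk.fil (e + P.g) → Pk.lc (e + P.g) x = 0 → x = 0 := by
    intro x hx hxf hxl
    exact h0 x hx (Pk.mem_fil_pred (by rw [baseChange_m0]; exact hn) hxf hxl)
  obtain ⟨sb, ⟨hsbE, hsbf⟩, hsb0⟩ := exists_sec Pk (n := e + P.g) hEk (by
    rw [baseChange_g]; omega)
  have hsbl : Pk.lc (e + P.g) sb ≠ 0 := fun h => hsb0 (hlc sb hsbE hsbf h)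
  have hone : ∀ x ∈ red A π E, x ∈ Pk.fil (e + P.g) → ∃ c : k, x = c • sb := by
    intro x hx hxf
    refine ⟨Pk.lc (e + P.g) x * (Pk.lc (e + P.g) sb)⁻¹, ?_⟩
    rw [← sub_eq_zero]
    apply hlc
    · refine sub_mem hx ?_
      rw [Algebra.smul_def]
      exact Ideal.mul_mem_left _ _ hsbE
    · exact sub_mem hxf (Submodule.smul_mem _ _ hsbf)
    · rw [map_sub, map_smul, smul_eq_mul, mul_assoc, inv_mul_cancel₀ hsbl, mul_one, sub_self]
  have hsurj := fil_sup_of_one_dim Pk hEk (by rw [baseChange_m0]; exact hn.le) rfl hone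
  obtain ⟨s, hs, hsE, rfl⟩ := hE.exists_lift P π hπ (e + P.g) hsurj hsbf hsbE
  have hsu : IsUnit ((P.baseChange A).lc (e + P.g) s) := by
    apply isUnit_of_map_ne_zero π hπ
    rw [← P.lc_sp]
    exact hsbl
  have hleE : Ideal.span {sp B (incl (R := R) A) s} ≤ E :=
    (Ideal.span_singleton_le_iff_mem E).mpr hsE
  obtain ⟨I, hI⟩ := Ideal.dvd_iff_le.mpr hleE
  have hleI : Ideal.span {sp B (incl (R := R) A) s} ≤ I := by
    have h2 : E * I ≤ I := Ideal.mul_le_right
    rwa [← hI] at h2
  have hgs : Good P A (Ideal.span {sp B (incl (R := R) A) s}) :=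
    ⟨e + P.g, hn, s, hs, hsu, Ideal.mem_span_singleton_self _⟩
  have hgI : Good P A I := hgs.mono P hleI
  have hsK0 : sp B (incl (R := R) A) s ≠ 0 := by
    intro h1
    have h2 := ne_bot_of_good P hgs
    rw [h1] at h2
    exact h2 (by simp)
  -- codimensions
  have hsKfil : sp B (incl (R := R) A) s ∈ PK.fil (e + P.g) := P.sp_mem_fil _ hs
  have hsKlc : PK.lc (e + P.g) (sp B (incl (R := R) A) s) ≠ 0 := by
    rw [P.lc_sp]
    intro h1
    have h2 : (P.baseChange A).lc (e + P.g) s = 0 :=
      incl_injective (R := R) A (h1.trans (map_zero _).symm)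
    rw [h2] at hsu
    exact not_isUnit_zero hsu
  have hsrel : IsRel K (Ideal.span {sp B (incl (R := R) A) s}) (e + P.g) :=
    isRel_of_exact PK (by rw [baseChange_m0]; exact hn) hsKfil hsKlc
  have hE0 := ne_bot_of_good P hE
  have hI0 := ne_bot_of_good P hgI
  obtain ⟨d, hd⟩ := exists_isRel PK hI0
  have hdg : d = P.g := by
    have h1 := he.mul_dedekind hd hE0 hI0
    rw [← hI] at h1
    have := h1.degree_unique hsrel
    omega
  subst hdg
  have hredmul : red A π E * red A π I = Ideal.span {sp B π s} := by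
    rw [← red_mul P π hπ hE hgI, ← hI, red_span P π hπ hsb0]
  have hskrel : IsRel k (Ideal.span {sp B π s}) (e + P.g) :=
    isRel_of_exact Pk (by rw [baseChange_m0]; exact hn) hsbf hsbl
  refine ⟨I, sp B (incl (R := R) A) s, sp B π s, hgI, hd, hsK0, hI.symm, ?_, hredmul, hsb0, hsbf,
    ?_⟩
  · refine nonsp_of_one Pk (E := red A π E) (u := sp B π s) (n := e + P.g)
      (by rw [baseChange_m0]; exact hn.le) hsb0 (by rw [mul_comm]; exact hredmul) hskrel ?_
    exact hone
  · -- uniqueness
    intro I' u hI' hu hEI'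
    have hurel : IsRel K (Ideal.span {u}) (e + P.g) := by
      rw [← hEI']
      exact he.mul_dedekind hI' hE0 (hI'.ne_bot PK)
    have huE : u ∈ E := by
      have : u ∈ E * I' := by rw [hEI']; exact Ideal.mem_span_singleton_self _
      exact Ideal.mul_le_left this
    have huf : u ∈ PK.fil (e + P.g) :=
      mem_fil_of_degree_le PK (by rw [baseChange_m0]; exact hn.le) hurel le_rfl
    set sK := sp B (incl (R := R) A) s with hsK
    let c : K := PK.lc (e + P.g) u * (PK.lc (e + P.g) sK)⁻¹
    have hzero : u - c • sK = 0 := by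
      by_contra hne
      have h1 : u - c • sK ∈ E := by
        refine sub_mem huE ?_
        rw [Algebra.smul_def]
        exact Ideal.mul_mem_left _ _ hsE
      have h2 : u - c • sK ∈ PK.fil (e + P.g - 1) := by
        apply PK.mem_fil_pred (by rw [baseChange_m0]; exact hn)
        · exact sub_mem huf (Submodule.smul_mem _ _ hsKfil)
        · rw [map_sub, map_smul, smul_eq_mul, mul_assoc, inv_mul_cancel₀ hsKlc, mul_one, sub_self]
      obtain ⟨b, v, hb, hv, hv0⟩ := exists_primitive P A π hne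
      apply hv0
      apply h0
      · rw [mem_red π hπ]
        refine ⟨v, ?_, rfl⟩
        rw [hv, Algebra.smul_def]
        exact Ideal.mul_mem_left _ _ h1
      · apply P.sp_mem_fil
        rw [mem_fil]
        intro i hi
        apply incl_injective (R := R) A
        rw [map_zero, baseChange_b, ← P.repr_sp, hv, map_smul, Finsupp.smul_apply]
        rw [mem_fil] at h2
        have := h2 i hi
        rw [baseChange_b] at this
        rw [this, smul_zero]
    have hus : u = c • sK := sub_eq_zero.mp hzero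
    have hc : c ≠ 0 := by
      rintro h1
      rw [h1, zero_smul] at hus
      exact hu hus
    have hspan : Ideal.span {u} = Ideal.span {sK} := by
      rw [hus, Algebra.smul_def]
      exact Ideal.span_singleton_mul_left_unit
        ((isUnit_iff_ne_zero.mpr hc).map (algebraMap K (K ⊗[R] B))) sK
    exact mul_left_cancel₀ (a := E) hE0 (by rw [hEI', hspan, ← hI])

include hπ in
/-- **The moving theorem**. -/
theorem move (G : Set (A →ₐ[R] A)) (hG : ∀ σ ∈ G, π.comp σ = π)
    (hsurj : ∀ c : k, ∃ a : A, π a = c ∧ ∀ σ ∈ G, σ a = a) {ι : Type*} [Finite ι]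
    (J : ι → Ideal (K ⊗[R] B)) (hJ : ∀ i, J i ≠ ⊥) (W : Finset (Ideal (k ⊗[R] B)))
    (hW : ∀ w ∈ W, w.IsMaximal) :
    ∃ (S : Finset (B →ₐ[R] A)) (I : ι → Ideal (K ⊗[R] B)),
      (∀ v ∈ S, ∀ σ ∈ G, σ.comp v = v) ∧
      ∀ i, Good P A (I i) ∧ IsRel K (I i) P.g ∧
        Lin (I i * ∏ v ∈ S, ptIdeal ((incl A).comp v)) (J i) ∧
        Nonsp (P.baseChange k) (red A π (I i)) ∧ (∀ w ∈ W, ¬ red A π (I i) ≤ w) ∧
        (∀ I' : Ideal (K ⊗[R] B), IsRel K I' P.g →
          Lin (I' * ∏ v ∈ S, ptIdeal ((incl A).comp v)) (J i) → I' = I i) := by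
  classical
  cases nonempty_fintype ι
  have : Infinite k := IsAlgClosed.instInfinite
  let Pk := P.baseChange k
  let PK := P.baseChange K
  have hg := P.hg
  -- good ideals in the inverse classes
  have hinv : ∀ i, ∃ Z : Ideal (K ⊗[R] B), Good P A Z ∧
      ∃ u : K ⊗[R] B, u ≠ 0 ∧ J i * Z = Ideal.span {u} := by
    intro i
    obtain ⟨a, ha, ha0⟩ := Submodule.exists_mem_ne_zero_of_ne_bot (hJ i)
    obtain ⟨J', hJ'⟩ := Ideal.dvd_iff_le.mpr ((Ideal.span_singleton_le_iff_mem (J i)).mpr ha)
    have hJ'0 : J' ≠ ⊥ := by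
      rintro rfl
      rw [Ideal.mul_bot, Ideal.span_singleton_eq_bot] at hJ'
      exact ha0 hJ'
    obtain ⟨Z, hZ, hLin⟩ := exists_good_lin (A := A) P π hπ hJ'0
    obtain ⟨u, hu0, hu⟩ := hLin.exists_principal (E := J i) ha0 (by rw [mul_comm, ← hJ'])
    exact ⟨Z, hZ, u, hu0, by rw [mul_comm]; exact hu⟩
  choose Z hZ u hu0 hu using hinv
  choose a ha using fun i => exists_isRel PK (ne_bot_of_good P (hZ i))
  have hak : ∀ i, IsRel k (red A π (Z i)) (a i) := fun i => (hZ i).isRel_red P π hπ (ha i)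
  have hw1 : ∀ w ∈ W, IsRel k w 1 := fun w hw => isRel_one_of_isMaximal Pk (hW w hw)
  have hakw : ∀ i, ∀ w ∈ W, IsRel k (red A π (Z i) * w) (a i + 1) := fun i w hw =>
    (hak i).mul_dedekind (hw1 w hw) ((hak i).ne_bot Pk) ((hw1 w hw).ne_bot Pk)
  choose n1 hn1 using fun i => finrank_sec Pk (hak i)
  choose! n2 hn2 using fun i w (hw : w ∈ W) => finrank_sec Pk (hakw i w hw)
  -- the number of points
  let m : ℕ := (Finset.univ.sup n1) + (Finset.univ.sup fun i => W.sup (n2 i)) + P.m0 + P.g + 1
  have hm1 : ∀ i, n1 i + P.m0 + P.g + 1 ≤ m := by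
    intro i
    have := Finset.le_sup (f := n1) (Finset.mem_univ i)
    simp only [m]; omega
  have hm2 : ∀ i, ∀ w ∈ W, n2 i w + P.m0 + P.g + 1 ≤ m := by
    intro i w hw
    have h1 := Finset.le_sup (f := n2 i) hw
    have h2 := Finset.le_sup (f := fun i => W.sup (n2 i)) (Finset.mem_univ i)
    simp only [m]; omega
  have hm3 : P.m0 + P.g + 1 ≤ m := by simp only [m]; omega
  let VV : Finset (Submodule k (k ⊗[R] B)) :=
    (Finset.univ.image fun i => sec Pk (red A π (Z i)) (m + a i - 1)) ∪
      ((Finset.univ ×ˢ W).image fun iw => sec Pk (red A π (Z iw.1) * iw.2) (m + a iw.1))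
  obtain ⟨Sb, hSb, -, hSV⟩ := exists_select P (m - P.g) VV (by
    intro V hV
    rcases Finset.mem_union.mp hV with h | h
    · obtain ⟨i, -, rfl⟩ := Finset.mem_image.mp h
      refine ⟨finite_sec Pk _ _, ?_⟩
      have := hn1 i (m + a i - 1) (by have := hm1 i; omega) (by
        rw [baseChange_m0]; have := hm1 i; omega)
      rw [baseChange_g] at this
      omega
    · obtain ⟨⟨i, w⟩, hiw, rfl⟩ := Finset.mem_image.mp h
      have hw : w ∈ W := (Finset.mem_product.mp hiw).2
      refine ⟨finite_sec Pk _ _, ?_⟩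
      have := hn2 i w hw (m + a i) (by have := hm2 i w hw; omega) (by
        rw [baseChange_m0]; have := hm1 i; omega)
      rw [baseChange_g] at this
      simp only
      omega) ∅
  have hV1 : ∀ i, ∀ x ∈ red A π (Z i), x ∈ Pk.fil (m + a i - 1) →
      (∀ v ∈ Sb, ptHom v x = 0) → x = 0 := by
    intro i x hx hxf hxS
    exact hSV _ (Finset.mem_union_left _ (Finset.mem_image_of_mem _ (Finset.mem_univ i))) x
      ⟨hx, hxf⟩ hxS
  have hV2 : ∀ i, ∀ w ∈ W, ∀ x ∈ red A π (Z i) * w, x ∈ Pk.fil (m + a i) →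
      (∀ v ∈ Sb, ptHom v x = 0) → x = 0 := by
    intro i w hw x hx hxf hxS
    refine hSV _ (Finset.mem_union_right _ (Finset.mem_image.mpr ⟨(i, w),
      Finset.mem_product.mpr ⟨Finset.mem_univ i, hw⟩, rfl⟩)) x ⟨hx, hxf⟩ hxS
  -- lift the points
  choose L hL hLG using fun vb : B →ₐ[R] k => exists_fixed_pt P π hπ G hG hsurj vb
  have hLinj : Function.Injective L := by
    intro v w h
    rw [← hL v, ← hL w, h]
  let S : Finset (B →ₐ[R] A) := Sb.image L
  have hScard : S.card = m - P.g := by rw [Finset.card_image_of_injective _ hLinj, hSb]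
  let Q : Ideal (K ⊗[R] B) := ∏ v ∈ S, ptIdeal ((incl A).comp v)
  have hQ : Good P A Q := Good.prod P S fun v _ => good_ptIdeal P v
  have hQrel : IsRel K Q (m - P.g) := by
    rw [← hScard]
    exact isRel_prod PK S fun v _ => isRel_ptIdeal _
  have hredQ : red A π Q = ∏ v ∈ Sb, ptIdeal v := by
    rw [red_prod P π hπ S fun v _ => good_ptIdeal P v, Finset.prod_image fun v _ w _ h => hLinj h]
    refine Finset.prod_congr rfl fun v _ => ?_
    rw [red_ptIdeal π hπ, hL]
  have hvan : ∀ x ∈ red A π Q, ∀ v ∈ Sb, ptHom v x = 0 := by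
    intro x hx v hv
    rw [hredQ] at hx
    have h1 : ∏ v ∈ Sb, ptIdeal v ≤ ptIdeal v := by
      rw [← Finset.mul_prod_erase Sb _ hv]
      exact Ideal.mul_le_left
    exact h1 hx
  -- apply the core
  have hcore := fun i => move_one P π hπ (E := Z i * Q) ((hZ i).mul P hQ) (e := a i + (m - P.g))
    ((ha i).mul_dedekind hQrel (ne_bot_of_good P (hZ i)) (ne_bot_of_good P hQ))
    (by have := hm1 i; omega) (by
      intro x hx hxf
      rw [red_mul P π hπ (hZ i) hQ] at hx
      apply hV1 i x (Ideal.mul_le_left hx)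
      · have : a i + (m - P.g) + P.g - 1 = m + a i - 1 := by have := hm1 i; omega
        rwa [this] at hxf
      · exact hvan x (Ideal.mul_le_right hx))
  choose I s sb hIg hIrel hs0 hEI hns hredI hsb0 hsbf huniq using hcore
  refine ⟨S, I, ?_, fun i => ⟨hIg i, hIrel i, ?_, hns i, ?_, ?_⟩⟩
  · intro v hv σ hσ
    obtain ⟨vb, -, rfl⟩ := Finset.mem_image.mp hv
    exact hLG vb σ hσ
  · -- linear equivalence
    refine Lin.of_principal (E := Z i) (s := s i) (s' := u i) (hs0 i) (hu0 i) ?_ (hu i)
    rw [← hEI i]; ring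
  · intro w hw hle
    apply hsb0 i
    have h1 : Ideal.span {sb i} ≤ red A π (Z i) * w := by
      rw [← hredI i, red_mul P π hπ (hZ i) hQ]
      calc red A π (Z i) * red A π Q * red A π (I i) ≤ red A π (Z i) * red A π (I i) := by
            rw [mul_assoc]
            exact Ideal.mul_mono_right Ideal.mul_le_right
        _ ≤ red A π (Z i) * w := Ideal.mul_mono_right hle
    have h2 : Ideal.span {sb i} ≤ red A π Q := by
      rw [← hredI i, red_mul P π hπ (hZ i) hQ]
      exact Ideal.mul_le_left.trans Ideal.mul_le_right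
    refine hV2 i w hw (sb i) (h1 (Ideal.mem_span_singleton_self _)) ?_
      (hvan _ (h2 (Ideal.mem_span_singleton_self _)))
    have h3 := hsbf i
    have : a i + (m - P.g) + P.g = m + a i := by have := hm1 i; omega
    rwa [this] at h3
  · intro I' hI' hLin
    obtain ⟨u', hu'0, hu'⟩ := hLin.symm.exists_principal (E := Z i) (hu0 i) (hu i)
    refine huniq i I' u' hI' hu'0 ?_
    rw [← hu']; ring

end Fermat.Agent.HopfFrame
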