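import Fermat.Agent.HopfFrame.Good

/-!
# Multiplicativity of the reduction of good ideals, points
-/

set_option autoImplicit false

open scoped TensorProduct

namespace Fermat.Agent.HopfFrame

open Fermat.Agent.HopfOrder Fermat.Agent.HopfOrder.PoleBasis

variable {R B : Type*} [CommRing R] [CommRing B] [Algebra R B] (P : PoleBasis R B)

section Pt

/-- The point `T ⊗ B → T` attached to `v : B → T`. -/
noncomputable def ptHom {T : Type*} [CommRing T] [Algebra R T] (v : B →ₐ[R] T) :
    T ⊗[R] B →ₐ[T] T :=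
  Algebra.TensorProduct.lift (AlgHom.id T T) v (fun _ _ => Commute.all _ _)

@[simp] lemma ptHom_tmul {T : Type*} [CommRing T] [Algebra R T] (v : B →ₐ[R] T) (t : T) (b : B) :
    ptHom v (t ⊗ₜ b) = t * v b := by
  simp [ptHom]

/-- The ideal of a point. -/
noncomputable def ptIdeal {T : Type*} [CommRing T] [Algebra R T] (v : B →ₐ[R] T) :
    Ideal (T ⊗[R] B) := RingHom.ker (ptHom v)

variable {T : Type*} [CommRing T] [Algebra R T] (v : B →ₐ[R] T)

lemma mem_ptIdeal {x : T ⊗[R] B} : x ∈ ptIdeal v ↔ ptHom v x = 0 := RingHom.mem_ker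

lemma ptHom_surjective : Function.Surjective (ptHom v) := fun t =>
  ⟨algebraMap T _ t, by rw [AlgHom.commutes]; rfl⟩

lemma isRel_ptIdeal : IsRel T (ptIdeal v) 1 := by
  refine isRel_of_coord (LinearMap.pi fun _ => (ptHom v).toLinearMap) ?_ ?_
  · intro y
    obtain ⟨x, hx⟩ := ptHom_surjective v (y 0)
    refine ⟨x, ?_⟩
    funext i
    rw [Subsingleton.elim i 0]
    exact hx
  · intro x
    rw [mem_ptIdeal]
    constructor
    · intro h
      funext i
      exact h
    · intro h
      exact congrFun h 0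

lemma ptHom_sp {T' : Type*} [CommRing T'] [Algebra R T'] (φ : T →ₐ[R] T') (x : T ⊗[R] B) :
    ptHom (φ.comp v) (sp B φ x) = φ (ptHom v x) := by
  induction x with
  | zero => simp
  | tmul t b => simp
  | add x y hx hy => rw [map_add, map_add, map_add, map_add, hx, hy]

instance {T : Type*} [Field T] [Algebra R T] (v : B →ₐ[R] T) : (ptIdeal v).IsMaximal :=
  RingHom.ker_isMaximal_of_surjective (ptHom v).toRingHom (ptHom_surjective v)

lemma ptIdeal_injective {v v' : B →ₐ[R] T} (h : ptIdeal v = ptIdeal v') : v = v' := by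
  ext b
  have h1 : (1 : T) ⊗ₜ[R] b - algebraMap T (T ⊗[R] B) (v b) ∈ ptIdeal v := by
    rw [mem_ptIdeal, map_sub, AlgHom.commutes]
    simp
  rw [h, mem_ptIdeal, map_sub, AlgHom.commutes] at h1
  have : v' b - v b = 0 := by simpa using h1
  exact (sub_eq_zero.mp this).symm

/-- Over an algebraically closed field, all maximal ideals are points. -/
lemma exists_pt {T : Type*} [Field T] [IsAlgClosed T] [Algebra R T] [IsDedekindDomain (T ⊗[R] B)]
    {p : Ideal (T ⊗[R] B)} (hp : p.IsMaximal) (P : PoleBasis R B) :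
    ∃ v : B →ₐ[R] T, p = ptIdeal v := by
  have h1 := isRel_one_of_isMaximal (P.baseChange T) hp
  have hfin := h1.finite
  let _ := Ideal.Quotient.field p
  have : Algebra.IsIntegral T (T ⊗[R] B ⧸ p) := Algebra.IsIntegral.of_finite T _
  have hbij := IsAlgClosed.algebraMap_bijective_of_isIntegral (k := T) (K := T ⊗[R] B ⧸ p)
  let e := AlgEquiv.ofBijective (Algebra.ofId T (T ⊗[R] B ⧸ p)) hbij
  let f : T ⊗[R] B →ₐ[T] T := (e.symm : (T ⊗[R] B ⧸ p) →ₐ[T] T).comp (Ideal.Quotient.mkₐ T p)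
  let v : B →ₐ[R] T := (f.restrictScalars R).comp Algebra.TensorProduct.includeRight
  have hf : f = ptHom v := by
    apply Algebra.TensorProduct.ext
    · ext
    · ext b
      simp [v]
  refine ⟨v, ?_⟩
  ext x
  rw [mem_ptIdeal, ← hf]
  change _ ↔ e.symm (Ideal.Quotient.mk p x) = 0
  rw [EmbeddingLike.map_eq_zero_iff, Ideal.Quotient.eq_zero_iff_mem]

end Pt

variable {K : Type*} [Field K] [Algebra R K] {A : ValuationSubring K} [Algebra R A]
  [IsScalarTower R A K]
variable {k : Type*} [Field k] [Algebra R k] (π : A →ₐ[R] k)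

lemma ne_bot_of_good {J : Ideal (K ⊗[R] B)} (h : Good P A J) : J ≠ ⊥ := by
  obtain ⟨n, hn, s, hs, hu, hsJ⟩ := h
  rintro rfl
  have h1 : sp B (incl (R := R) A) s = 0 := hsJ
  have h2 := P.lc_sp (incl (R := R) A) n s
  rw [h1, map_zero] at h2
  have h3 : (P.baseChange A).lc n s = 0 := Subtype.ext h2.symm
  rw [h3] at hu
  exact not_isUnit_zero hu

lemma good_ptIdeal (v : B →ₐ[R] A) : Good P A (ptIdeal ((incl A).comp v)) := by
  have hg := P.hg
  let n := P.m0 + 1
  let u : A ⊗[R] B := (P.baseChange A).b (n - P.g)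
  have hu : u ∈ (P.baseChange A).fil n := (P.baseChange A).b_mem_fil (by
    rw [baseChange_g]; omega)
  have h1 : algebraMap A (A ⊗[R] B) (ptHom v u) ∈ (P.baseChange A).fil P.m0 := by
    rw [Algebra.algebraMap_eq_smul_one]
    exact Submodule.smul_mem _ _ ((P.baseChange A).one_mem_fil le_rfl)
  refine ⟨n, by omega, u - algebraMap A _ (ptHom v u), ?_, ?_, ?_⟩
  · exact sub_mem hu ((P.baseChange A).fil_mono (by omega) h1)
  · rw [map_sub, (P.baseChange A).lc_eq_zero_of_mem (n := P.m0) (m := n) (by omega) (by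
      rw [baseChange_m0]; omega) h1, sub_zero]
    have := (P.baseChange A).lc_b (n := n)
    rw [baseChange_g] at this
    rw [this]
    exact isUnit_one
  · rw [mem_ptIdeal, ptHom_sp, map_sub, AlgHom.commutes]
    simp

variable (hπ : Function.Surjective π)

include hπ in
lemma red_ptIdeal (v : B →ₐ[R] A) : red A π (ptIdeal ((incl A).comp v)) = ptIdeal (π.comp v) := by
  ext y
  rw [mem_red π hπ, mem_ptIdeal]
  constructor
  · rintro ⟨x, hx, rfl⟩
    rw [mem_ptIdeal, ptHom_sp] at hx
    have h1 : ptHom v x = 0 := incl_injective (R := R) A (hx.trans (map_zero _).symm)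
    rw [ptHom_sp, h1, map_zero]
  · intro hy
    obtain ⟨x, rfl⟩ := sp_surjective (B := B) π hπ y
    refine ⟨x - algebraMap A _ (ptHom v x), ?_, ?_⟩
    · rw [mem_ptIdeal, ptHom_sp, map_sub, AlgHom.commutes]
      simp
    · rw [map_sub, sp_algebraMap, ← ptHom_sp, hy, map_zero, sub_zero]

variable [IsDedekindDomain (k ⊗[R] B)] [IsDedekindDomain (K ⊗[R] B)]

include hπ in
/-- The reduction is multiplicative on good ideals. -/
theorem red_mul {J J' : Ideal (K ⊗[R] B)} (h : Good P A J) (h' : Good P A J') :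
    red A π (J * J') = red A π J * red A π J' := by
  have h0 := ne_bot_of_good P h
  have h0' := ne_bot_of_good P h'
  obtain ⟨d, hd⟩ := exists_isRel (P.baseChange K) h0
  obtain ⟨d', hd'⟩ := exists_isRel (P.baseChange K) h0'
  have h1 := (h.mul P h').isRel_red P π hπ (hd.mul_dedekind hd' h0 h0')
  have h2 := h.isRel_red P π hπ hd
  have h2' := h'.isRel_red P π hπ hd'
  have h3 := h2.mul_dedekind h2' (h2.ne_bot (P.baseChange k)) (h2'.ne_bot (P.baseChange k))
  symm
  refine h3.eq_of_le h1 le_rfl ?_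
  rw [Ideal.mul_le]
  intro x hx y hy
  obtain ⟨x', hx', rfl⟩ := (mem_red π hπ).mp hx
  obtain ⟨y', hy', rfl⟩ := (mem_red π hπ).mp hy
  rw [← map_mul]
  refine (mem_red π hπ).mpr ⟨x' * y', ?_, rfl⟩
  rw [map_mul]
  exact Ideal.mul_mem_mul hx' hy'

include hπ in
omit [IsDedekindDomain (K ⊗[R] B)] [IsDedekindDomain (k ⊗[R] B)] in
lemma red_top : red A π (⊤ : Ideal (K ⊗[R] B)) = ⊤ := by
  rw [Ideal.eq_top_iff_one, mem_red π hπ]
  exact ⟨1, trivial, map_one _⟩

include hπ in
theorem red_prod {ι : Type*} (s : Finset ι) {J : ι → Ideal (K ⊗[R] B)}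
    (h : ∀ i ∈ s, Good P A (J i)) : red A π (∏ i ∈ s, J i) = ∏ i ∈ s, red A π (J i) := by
  classical
  induction s using Finset.induction_on with
  | empty => rw [Finset.prod_empty, Finset.prod_empty, Ideal.one_eq_top, red_top π hπ,
      Ideal.one_eq_top]
  | insert a s ha ih =>
    rw [Finset.prod_insert ha, Finset.prod_insert ha,
      red_mul P π hπ (h a (Finset.mem_insert_self a s))
        (Good.prod P s fun i hi => h i (Finset.mem_insert_of_mem hi)),
      ih fun i hi => h i (Finset.mem_insert_of_mem hi)]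

include hπ in
/-- Lifting of sections. -/
lemma Good.exists_lift {J : Ideal (K ⊗[R] B)} (h : Good P A J) (n : ℕ)
    (hn : ∀ y : k ⊗[R] B, ∃ z ∈ (P.baseChange k).fil n, y - z ∈ red A π J)
    {s : k ⊗[R] B} (hs : s ∈ (P.baseChange k).fil n) (hsJ : s ∈ red A π J) :
    ∃ s' ∈ (P.baseChange A).fil n, sp B (incl A) s' ∈ J ∧ sp B π s' = s := by
  obtain ⟨d, hd⟩ := exists_isRel (P.baseChange K) (ne_bot_of_good P h)
  obtain ⟨s', hs', hs'J, rfl⟩ := exists_lift_mem P π hπ (ker_le_jacobson π)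
    (h.isRel P π hπ hd) n hn hs hsJ
  exact ⟨s', hs', hs'J, rfl⟩

end Fermat.Agent.HopfFrame
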