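import Fermat.Agent.HopfFrame.Class

/-!
# Lifting points of the special fibre to points fixed by inertia
-/

set_option autoImplicit false

open scoped TensorProduct

namespace Fermat.Agent.HopfFrame

open Fermat.Agent.HopfOrder Fermat.Agent.HopfOrder.PoleBasis

variable {R B : Type*} [CommRing R] [CommRing B] [Algebra R B] (P : PoleBasis R B)
variable {K : Type*} [Field K] [Algebra R K] {A : ValuationSubring K} [Algebra R A]
  [IsScalarTower R A K]
variable {k : Type*} [Field k] [Algebra R k] (π : A →ₐ[R] k) (hπ : Function.Surjective π)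

include P hπ in
/-- Good points are integral. -/
lemma exists_of_good_pt [IsDomain (k ⊗[R] B)] {y : B →ₐ[R] K} (h : Good P A (ptIdeal y)) :
    ∃ v : B →ₐ[R] A, (incl A).comp v = y := by
  have hfin := h.finite P π hπ
  let f : (A ⊗[R] B) →ₐ[A] K := AlgHom.mk' ((ptHom y).toRingHom.comp (sp B (incl (R := R) A)).toRingHom)
    (by
      intro c x
      change ptHom y (sp B (incl A) (c • x)) = _
      rw [sp_smul, map_smul]
      rfl)
  have hf : ∀ x, f x = ptHom y (sp B (incl A) x) := fun _ => rfl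
  have hint : ∀ x, IsIntegral A (f x) := by
    intro x
    let g : (A ⊗[R] B ⧸ rA A (ptIdeal y)) →ₐ[A] K := Ideal.Quotient.liftₐ _ f (fun x hx => hx)
    have h1 : f x = g (Ideal.Quotient.mk _ x) := rfl
    rw [h1]
    have h2 : IsIntegral A (Ideal.Quotient.mk (rA A (ptIdeal y)) x) :=
      Algebra.IsIntegral.isIntegral (R := A) _
    exact h2.map g
  have hmem : ∀ b, y b ∈ A := by
    intro b
    have h1 := hint (1 ⊗ₜ b)
    rw [hf, sp_tmul, map_one, ptHom_tmul, one_mul] at h1
    obtain ⟨a, ha⟩ := IsIntegrallyClosed.algebraMap_eq_of_integral h1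
    rw [← ha]
    exact a.2
  refine ⟨{ toFun := fun b => ⟨y b, hmem b⟩
            map_one' := Subtype.ext (map_one y)
            map_mul' := fun a b => Subtype.ext (map_mul y a b)
            map_zero' := Subtype.ext (map_zero y)
            map_add' := fun a b => Subtype.ext (map_add y a b)
            commutes' := fun r => Subtype.ext (by
              change y (algebraMap R B r) = algebraMap A K (algebraMap R A r)
              rw [AlgHom.commutes, ← IsScalarTower.algebraMap_apply]) }, ?_⟩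
  ext b
  rfl

variable [IsDedekindDomain (K ⊗[R] B)] [IsAlgClosed K] [IsDedekindDomain (k ⊗[R] B)]

include P hπ in
/-- A point of the special fibre on the reduction of a good ideal lifts. -/
theorem exists_lift_pt {J : Ideal (K ⊗[R] B)} (hJ : Good P A J) {vb : B →ₐ[R] k}
    (h : red A π J ≤ ptIdeal vb) : ∃ v : B →ₐ[R] A, J ≤ ptIdeal ((incl A).comp v) ∧
      π.comp v = vb := by
  induction J using UniqueFactorizationMonoid.induction_on_prime with
  | h₁ => exact absurd rfl (ne_bot_of_good P hJ)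
  | h₂ J hu =>
    rw [Ideal.isUnit_iff] at hu
    rw [hu, red_top π hπ] at h
    exact absurd (top_le_iff.mp h) (Ideal.IsMaximal.ne_top inferInstance)
  | h₃ J p hJ0 hp ih =>
    have hpm : p.IsMaximal := (Ideal.isPrime_of_prime hp).isMaximal hp.ne_zero
    have hgp : Good P A p := hJ.mono P Ideal.mul_le_left
    have hgJ : Good P A J := hJ.mono P Ideal.mul_le_right
    rw [red_mul P π hπ hgp hgJ] at h
    have hprime : (ptIdeal vb).IsPrime := inferInstance
    rcases (Ideal.IsPrime.mul_le hprime).mp h with h1 | h1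
    · obtain ⟨y, rfl⟩ := exists_pt hpm P
      obtain ⟨v, rfl⟩ := exists_of_good_pt P π hπ hgp
      refine ⟨v, Ideal.mul_le_left, ?_⟩
      rw [red_ptIdeal π hπ] at h1
      exact ptIdeal_injective (Ideal.IsMaximal.eq_of_le inferInstance
        (Ideal.IsMaximal.ne_top inferInstance) h1)
    · obtain ⟨v, hv, hv'⟩ := ih hgJ h1
      exact ⟨v, Ideal.mul_le_right.trans hv, hv'⟩

omit [IsDedekindDomain (K ⊗[R] B)] [IsAlgClosed K] [Algebra R K] [IsScalarTower R A K]
  [IsDedekindDomain (k ⊗[R] B)] in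
/-- Lifting an element of the special fibre to an element with coefficients fixed by `G`. -/
lemma exists_fixed_lift (G : Set (A →ₐ[R] A))
    (hsurj : ∀ c : k, ∃ a : A, π a = c ∧ ∀ σ ∈ G, σ a = a) {n : ℕ} {sb : k ⊗[R] B}
    (hsb : sb ∈ (P.baseChange k).fil n) : ∃ s ∈ (P.baseChange A).fil n, sp B π s = sb ∧
      ∀ σ ∈ G, sp B σ s = s := by
  rw [fil] at hsb
  induction hsb using Submodule.span_induction with
  | mem x hx =>
    obtain ⟨i, hi, rfl⟩ := hx
    exact ⟨P.bas A i, Submodule.subset_span ⟨i, hi, rfl⟩, P.sp_bas π i, fun σ _ => P.sp_bas σ i⟩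
  | zero => exact ⟨0, zero_mem _, map_zero _, fun σ _ => map_zero _⟩
  | add y z _ _ hy hz =>
    obtain ⟨a, ha, rfl, ha'⟩ := hy
    obtain ⟨c, hc, rfl, hc'⟩ := hz
    exact ⟨a + c, add_mem ha hc, map_add _ _ _, fun σ hσ => by rw [map_add, ha' σ hσ, hc' σ hσ]⟩
  | smul a y _ hy =>
    obtain ⟨c, hc, rfl, hc'⟩ := hy
    obtain ⟨a, rfl, ha'⟩ := hsurj a
    exact ⟨a • c, Submodule.smul_mem _ _ hc, sp_smul π a c, fun σ hσ => by
      rw [sp_smul, ha' σ hσ, hc' σ hσ]⟩

include P hπ in
/-- Lifting of points to fixed points. `G` is a set of endomorphisms of `A` acting trivially on the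
residue field. -/
theorem exists_fixed_pt [Infinite k] (G : Set (A →ₐ[R] A)) (hG : ∀ σ ∈ G, π.comp σ = π)
    (hsurj : ∀ c : k, ∃ a : A, π a = c ∧ ∀ σ ∈ G, σ a = a) (vb : B →ₐ[R] k) :
    ∃ v : B →ₐ[R] A, π.comp v = vb ∧ ∀ σ ∈ G, σ.comp v = v := by
  classical
  let Pk := P.baseChange k
  have hV : ptIdeal vb ≠ ⊥ := (isRel_ptIdeal vb).ne_bot Pk
  obtain ⟨N0, hN0⟩ := exists_generic Pk hV hV
  let n := N0 + P.m0 + 1
  obtain ⟨sb, hsb, hsbl, D, hD, hDc⟩ := hN0 n (by omega)
  obtain ⟨s, hs, rfl, hsG⟩ := exists_fixed_lift P π G hsurj hsb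
  have hsu : IsUnit ((P.baseChange A).lc n s) := by
    apply isUnit_of_map_ne_zero π hπ
    rw [← P.lc_sp]
    exact hsbl
  have hs0 : sp B π s ≠ 0 := fun h0 => hsbl (by rw [h0, map_zero])
  let J : Ideal (K ⊗[R] B) := Ideal.span {sp B (incl (R := R) A) s}
  have hJ : Good P A J := ⟨n, by omega, s, hs, hsu, Ideal.mem_span_singleton_self _⟩
  have hredJ : red A π J = Ideal.span {sp B π s} := red_span P π hπ hs0
  have hle : red A π J ≤ ptIdeal vb := by
    rw [hredJ, ← hD]
    exact Ideal.mul_le_left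
  obtain ⟨v, hv, hvb⟩ := exists_lift_pt P π hπ hJ hle
  have hzero : ∀ w : B →ₐ[R] A, J ≤ ptIdeal ((incl A).comp w) ↔ ptHom w s = 0 := by
    intro w
    rw [Ideal.span_singleton_le_iff_mem, mem_ptIdeal, ptHom_sp]
    exact (map_eq_zero_iff _ (incl_injective (R := R) A))
  -- uniqueness
  have huniq : ∀ w : B →ₐ[R] A, ptHom w s = 0 → π.comp w = vb → w = v := by
    intro w hw hwb
    by_contra hne
    have hne' : ptIdeal ((incl A).comp w) ≠ ptIdeal ((incl A).comp v) := by
      intro h1
      apply hne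
      have h2 := ptIdeal_injective h1
      ext b
      exact DFunLike.congr_fun h2 b
    have hcop : ptIdeal ((incl A).comp w) ⊔ ptIdeal ((incl A).comp v) = ⊤ :=
      Ideal.IsMaximal.coprime_of_ne inferInstance inferInstance hne'
    have hJle : J ≤ ptIdeal ((incl A).comp w) * ptIdeal ((incl A).comp v) := by
      rw [Ideal.mul_eq_inf_of_coprime hcop]
      exact le_inf ((hzero w).mpr hw) hv
    have h3 := red_mono π hJle
    rw [red_mul P π hπ (good_ptIdeal P w) (good_ptIdeal P v), red_ptIdeal π hπ, red_ptIdeal π hπ,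
      hredJ, hwb, hvb, ← hD] at h3
    have h4 : D ≤ ptIdeal vb := by
      have h5 : ptIdeal vb * D ≤ ptIdeal vb * ptIdeal vb := h3
      rw [← Ideal.dvd_iff_le] at h5 ⊢
      exact (mul_dvd_mul_iff_left (a := ptIdeal vb) hV).mp h5
    have h5 : ptIdeal vb = ⊤ := by
      rw [← hDc]
      exact (sup_eq_right.mpr h4).symm
    exact Ideal.IsMaximal.ne_top inferInstance h5
  refine ⟨v, hvb, fun σ hσ => huniq _ ?_ ?_⟩
  · have h6 := ptHom_sp v σ s
    rw [hsG σ hσ, (hzero v).mp hv, map_zero] at h6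
    exact h6
  · rw [← AlgHom.comp_assoc, hG σ hσ, hvb]

end Fermat.Agent.HopfFrame
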