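import Fermat.Agent.HopfFrame.Point

/-!
# Choosing points in general position on the special fibre
-/

set_option autoImplicit false

open scoped TensorProduct

namespace Fermat.Agent.HopfFrame

open Fermat.Agent.HopfOrder Fermat.Agent.HopfOrder.PoleBasis

variable {R B : Type*} [CommRing R] [CommRing B] [Algebra R B] (P : PoleBasis R B)
variable {k : Type*} [Field k] [Algebra R k] [IsDedekindDomain (k ⊗[R] B)]

include P in
/-- There are infinitely many maximal ideals. -/
lemma exists_isMaximal_notMem [Infinite k] (Y : Finset (Ideal (k ⊗[R] B))) :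
    ∃ p : Ideal (k ⊗[R] B), p.IsMaximal ∧ p ∉ Y := by
  classical
  by_contra hcon
  push Not at hcon
  have hg := P.hg
  let n := P.m0 + 1
  have hn : P.m0 < n := by omega
  let u : k ⊗[R] B := P.bas k (n - P.g)
  have hne : ∀ c : k, Ideal.span {u - algebraMap k _ c} ≠ ⊤ := by
    intro c htop
    have h1 : algebraMap k (k ⊗[R] B) c ∈ (P.baseChange k).fil P.m0 := by
      rw [Algebra.algebraMap_eq_smul_one]
      exact Submodule.smul_mem _ _ ((P.baseChange k).one_mem_fil le_rfl)
    have h2 : IsRel k (Ideal.span {u - algebraMap k _ c}) n := by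
      apply isRel_of_exact (P.baseChange k) (by rw [baseChange_m0]; omega)
      · exact sub_mem (mem_fil_base P k hn) ((P.baseChange k).fil_mono hn.le h1)
      · rw [map_sub, lc_base, (P.baseChange k).lc_eq_zero_of_mem (n := P.m0) (m := n) hn (by
          rw [baseChange_m0]; omega) h1, sub_zero]
        exact one_ne_zero
    have h3 := h2.finrank
    rw [htop] at h3
    have : Subsingleton (k ⊗[R] B ⧸ (⊤ : Ideal (k ⊗[R] B))) := Ideal.Quotient.subsingleton_iff.mpr rfl
    rw [Module.finrank_zero_of_subsingleton] at h3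
    omega
  choose p hpm hp using fun c : k => Ideal.exists_le_maximal _ (hne c)
  obtain ⟨c, c', hcc, hpp⟩ := Finite.exists_ne_map_eq_of_infinite
    (fun c : k => (⟨p c, hcon _ (hpm c)⟩ : Y))
  have hpp' : p c = p c' := congrArg Subtype.val hpp
  have h1 : u - algebraMap k _ c ∈ p c := hp c (Ideal.mem_span_singleton_self _)
  have h2 : u - algebraMap k _ c' ∈ p c := by
    rw [hpp']; exact hp c' (Ideal.mem_span_singleton_self _)
  have h3 : algebraMap k (k ⊗[R] B) (c' - c) ∈ p c := by
    have := (p c).sub_mem h1 h2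
    rw [map_sub]
    convert this using 1
    ring
  apply (hpm c).ne_top
  apply Ideal.eq_top_of_isUnit_mem _ h3
  exact (isUnit_iff_ne_zero.mpr (sub_ne_zero.mpr hcc.symm)).map (algebraMap k (k ⊗[R] B))

variable [IsAlgClosed k]

include P in
/-- There is a point outside a finite set at which a given function does not vanish. -/
lemma exists_pt_ne {f : k ⊗[R] B} (hf : f ≠ 0) (X : Finset (Ideal (k ⊗[R] B))) :
    ∃ v : B →ₐ[R] k, ptHom v f ≠ 0 ∧ ptIdeal v ∉ X := by
  classical
  have : Infinite k := IsAlgClosed.instInfinite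
  let Y := (UniqueFactorizationMonoid.normalizedFactors (Ideal.span {f})).toFinset
  obtain ⟨p, hpm, hp⟩ := exists_isMaximal_notMem P (Y ∪ X)
  obtain ⟨v, rfl⟩ := exists_pt hpm P
  rw [Finset.mem_union, not_or] at hp
  refine ⟨v, fun h0 => hp.1 ?_, hp.2⟩
  rw [Multiset.mem_toFinset, Ideal.mem_normalizedFactors_iff
    (by rwa [Ne, Ideal.span_singleton_eq_bot])]
  exact ⟨inferInstance, (Ideal.span_singleton_le_iff_mem _).mpr h0⟩

include P in
/-- **Points in general position**: `N` points outside a finite set on which no nonzero element of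
finitely many subspaces of dimension at most `N` vanishes. -/
theorem exists_select (N : ℕ) (VV : Finset (Submodule k (k ⊗[R] B)))
    (hVV : ∀ V ∈ VV, Module.Finite k V ∧ Module.finrank k V ≤ N)
    (X : Finset (Ideal (k ⊗[R] B))) :
    ∃ S : Finset (B →ₐ[R] k), S.card = N ∧ (∀ v ∈ S, ptIdeal v ∉ X) ∧
      ∀ V ∈ VV, ∀ x ∈ V, (∀ v ∈ S, ptHom v x = 0) → x = 0 := by
  classical
  induction N generalizing VV X with
  | zero =>
    refine ⟨∅, rfl, by simp, fun V hV x hx _ => ?_⟩
    obtain ⟨h1, h2⟩ := hVV V hV
    have h3 : V = ⊥ := by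
      rw [← Submodule.finrank_eq_zero (R := k)]
      omega
    rw [h3] at hx
    exact (Submodule.mem_bot k).mp hx
  | succ N ih =>
    -- a nonzero element in each nonzero space
    have hex : ∀ V : Submodule k (k ⊗[R] B), ∃ f : k ⊗[R] B, f ≠ 0 ∧ (V ≠ ⊥ → f ∈ V) := by
      intro V
      by_cases hV : V = ⊥
      · exact ⟨1, one_ne_zero, fun h => absurd hV h⟩
      · obtain ⟨f, hf, hf0⟩ := Submodule.exists_mem_ne_zero_of_ne_bot hV
        exact ⟨f, hf0, fun _ => hf⟩
    choose f hf0 hfV using hex
    have hprod : ∏ V ∈ VV, f V ≠ 0 := Finset.prod_ne_zero_iff.mpr fun V _ => hf0 V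
    obtain ⟨v, hv, hvX⟩ := exists_pt_ne P hprod X
    let cut : Submodule k (k ⊗[R] B) → Submodule k (k ⊗[R] B) := fun V =>
      V ⊓ (LinearMap.ker (ptHom v).toLinearMap)
    obtain ⟨S, hS, hSX, hSV⟩ := ih (VV.image cut) (by
      intro W hW
      obtain ⟨V, hV, rfl⟩ := Finset.mem_image.mp hW
      obtain ⟨h1, h2⟩ := hVV V hV
      by_cases hV0 : V = ⊥
      · have h3 : cut V = ⊥ := by
          simp only [cut, hV0, bot_inf_eq]
        rw [h3]
        exact ⟨inferInstance, by simp⟩
      · have hlt : cut V < V := by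
          refine lt_of_le_of_ne inf_le_left fun heq => ?_
          have h3 : f V ∈ cut V := by rw [heq]; exact hfV V hV0
          have h4 : ptHom v (f V) = 0 := h3.2
          apply hv
          rw [map_prod]
          exact Finset.prod_eq_zero hV h4
        refine ⟨Submodule.finiteDimensional_of_le hlt.le, ?_⟩
        have := Submodule.finrank_lt_finrank_of_lt hlt
        omega) (insert (ptIdeal v) X)
    have hvS : v ∉ S := fun h => hSX v h (Finset.mem_insert_self _ _)
    refine ⟨insert v S, by rw [Finset.card_insert_of_notMem hvS, hS], ?_, ?_⟩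
    · intro w hw
      rcases Finset.mem_insert.mp hw with rfl | hw
      · exact hvX
      · exact fun h => hSX w hw (Finset.mem_insert_of_mem h)
    · intro V hV x hx hxS
      refine hSV (cut V) (Finset.mem_image_of_mem _ hV) x ⟨hx, ?_⟩
        (fun w hw => hxS w (Finset.mem_insert_of_mem hw))
      exact hxS v (Finset.mem_insert_self _ _)

end Fermat.Agent.HopfFrame
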